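/-
S41, PAIR sub-leaf (P5) "cusp systems", part 1 (helper62): positive parabolic elements of
`SL(2, ℤ)`.  `IsPosPar g` means `g = h⁻¹ T^m h` with `m > 0`.

* `coe_conj_T_zpow`: the entries of `h⁻¹ T^m h`;
* `isPosPar_iff`: `IsPosPar g ↔ trace g = 2 ∧ 0 < g 0 1 - g 1 0`;
* `conj_T_zpow_rigid` (F1): `h⁻¹ T^m h = k⁻¹ T^n k`, `m, n > 0` forces `m = n`, `k h⁻¹ = ± T^e`;
* `isPosPar_of_intertwine`, `isPosPar_iff_of_intertwine` (F2): positivity is invariant under
  conjugation by integer matrices of positive determinant.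
-/
import Mathlib
import Fermat.Agent.S21.H86.Parabolic

set_option autoImplicit false

open scoped MatrixGroups
open ModularGroup

namespace Fermat.Agent.S41.H62

/-- `g` is a positive parabolic element: conjugate in `SL(2, ℤ)` to `T^m`, `m > 0`. -/
def IsPosPar (g : SL(2, ℤ)) : Prop :=
  ∃ (h : SL(2, ℤ)) (m : ℕ), 0 < m ∧ g = h⁻¹ * T ^ m * h

theorem det_entries (h : SL(2, ℤ)) : h 0 0 * h 1 1 - h 0 1 * h 1 0 = 1 := by
  have := h.det_coe
  rwa [Matrix.det_fin_two] at this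

/-- Entries of `h⁻¹ T^m h`. -/
theorem coe_conj_T_zpow (h : SL(2, ℤ)) (m : ℤ) :
    ((h⁻¹ * T ^ m * h : SL(2, ℤ)) : Matrix (Fin 2) (Fin 2) ℤ) =
      !![1 + m * (h 1 1 * h 1 0), m * h 1 1 ^ 2;
         -(m * h 1 0 ^ 2), 1 - m * (h 1 1 * h 1 0)] := by
  have hdet := det_entries h
  rw [Matrix.SpecialLinearGroup.coe_mul, Matrix.SpecialLinearGroup.coe_mul,
    Matrix.SpecialLinearGroup.coe_inv, coe_T_zpow, Matrix.adjugate_fin_two]
  ext i j
  fin_cases i <;> fin_cases j <;>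
    simp only [Fin.zero_eta, Fin.mk_one, Fin.isValue, Matrix.mul_apply, Fin.sum_univ_two,
      Matrix.of_apply, Matrix.cons_val', Matrix.cons_val_zero, Matrix.cons_val_one,
      Matrix.cons_val_fin_one]
  · linear_combination hdet
  · linear_combination (0 : ℤ) * hdet
  · linear_combination (0 : ℤ) * hdet
  · linear_combination hdet

theorem coe_conj_T_pow (h : SL(2, ℤ)) (m : ℕ) :
    ((h⁻¹ * T ^ m * h : SL(2, ℤ)) : Matrix (Fin 2) (Fin 2) ℤ) =
      !![1 + (m : ℤ) * (h 1 1 * h 1 0), (m : ℤ) * h 1 1 ^ 2;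
         -((m : ℤ) * h 1 0 ^ 2), 1 - (m : ℤ) * (h 1 1 * h 1 0)] := by
  rw [← zpow_natCast, coe_conj_T_zpow]

/-- The bottom row of an element of `SL(2, ℤ)` is nonzero. -/
theorem bottom_sq_pos (h : SL(2, ℤ)) : 0 < h 1 1 ^ 2 + h 1 0 ^ 2 := by
  have hdet := det_entries h
  rcases eq_or_ne (h 1 0) 0 with h0 | h0
  · rcases eq_or_ne (h 1 1) 0 with h1 | h1
    · rw [h0, h1] at hdet
      simp at hdet
    · positivity
  · positivity

theorem trace_conj_T_zpow (h : SL(2, ℤ)) (m : ℤ) :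
    ((h⁻¹ * T ^ m * h : SL(2, ℤ)) : Matrix (Fin 2) (Fin 2) ℤ).trace = 2 := by
  rw [coe_conj_T_zpow, Matrix.trace_fin_two_of]
  ring

theorem upper_sub_lower_conj_T_zpow (h : SL(2, ℤ)) (m : ℤ) :
    (h⁻¹ * T ^ m * h : SL(2, ℤ)) 0 1 - (h⁻¹ * T ^ m * h : SL(2, ℤ)) 1 0
      = m * (h 1 1 ^ 2 + h 1 0 ^ 2) := by
  have := coe_conj_T_zpow h m
  have h01 := congrFun (congrFun this 0) 1
  have h10 := congrFun (congrFun this 1) 0
  simp only [Matrix.of_apply, Matrix.cons_val', Matrix.cons_val_zero, Matrix.cons_val_one,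
    Matrix.cons_val_fin_one] at h01 h10
  rw [h01, h10]
  ring

/-- A conjugate `h⁻¹ T^m h` with `m : ℤ` is positive parabolic iff `m > 0`. -/
theorem isPosPar_conj_T_zpow {h : SL(2, ℤ)} {m : ℤ} (hm : 0 < m) :
    IsPosPar (h⁻¹ * T ^ m * h) := by
  refine ⟨h, m.toNat, by omega, ?_⟩
  rw [← zpow_natCast, Int.toNat_of_nonneg hm.le]

/-- Characterisation of positive parabolic elements by trace and sign. -/
theorem isPosPar_iff (g : SL(2, ℤ)) :
    IsPosPar g ↔ (g : Matrix (Fin 2) (Fin 2) ℤ).trace = 2 ∧ 0 < g 0 1 - g 1 0 := by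
  constructor
  · rintro ⟨h, m, hm, rfl⟩
    rw [← zpow_natCast]
    refine ⟨trace_conj_T_zpow h m, ?_⟩
    rw [upper_sub_lower_conj_T_zpow]
    have := bottom_sq_pos h
    positivity
  · rintro ⟨htr, hpos⟩
    obtain ⟨δ, m, hδ⟩ := Fermat.Agent.S21.H86.exists_conj_T_zpow_of_trace_eq_two g htr
    have hg : g = (δ⁻¹)⁻¹ * T ^ m * δ⁻¹ := by
      rw [inv_inv, ← hδ, mul_inv_cancel_right]
    have hm : 0 < m := by
      rw [hg, upper_sub_lower_conj_T_zpow] at hpos
      have := bottom_sq_pos δ⁻¹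
      by_contra hcon
      have hm0 : m ≤ 0 := not_lt.mp hcon
      nlinarith
    rw [hg]
    exact isPosPar_conj_T_zpow hm

/-- (F1) Rigidity: the conjugating element and the exponent of a positive parabolic are unique
up to `± T^e`. -/
theorem conj_T_zpow_rigid {h k : SL(2, ℤ)} {m n : ℤ} (hn : 0 < n)
    (H : h⁻¹ * T ^ m * h = k⁻¹ * T ^ n * k) :
    m = n ∧ ∃ e : ℤ, k * h⁻¹ = T ^ e ∨ k * h⁻¹ = -T ^ e := by
  have hcomm : k * h⁻¹ * T ^ m = T ^ n * (k * h⁻¹) := by
    have := congrArg (fun x => k * x * h⁻¹) H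
    simp only [mul_assoc, mul_inv_cancel, mul_one, mul_inv_cancel_left] at this
    rw [mul_assoc]
    exact this
  set a : SL(2, ℤ) := k * h⁻¹ with ha
  have hdet := det_entries a
  have hM := congrArg (fun x : SL(2, ℤ) => (x : Matrix (Fin 2) (Fin 2) ℤ)) hcomm
  simp only [Matrix.SpecialLinearGroup.coe_mul, coe_T_zpow] at hM
  have e00 := congrFun (congrFun hM 0) 0
  have e01 := congrFun (congrFun hM 0) 1
  simp only [Fin.isValue, Matrix.mul_apply, Fin.sum_univ_two,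
      Matrix.of_apply, Matrix.cons_val', Matrix.cons_val_zero, Matrix.cons_val_one,
      Matrix.cons_val_fin_one] at e00 e01
  have hr : a 1 0 = 0 := by
    have : n * a 1 0 = 0 := by linarith
    rcases mul_eq_zero.mp this with h0 | h0
    · omega
    · exact h0
  rw [hr] at hdet
  have hps : a 0 0 * a 1 1 = 1 := by linarith
  rcases Int.eq_one_or_neg_one_of_mul_eq_one' hps with ⟨hp, hs⟩ | ⟨hp, hs⟩
  · rw [hp, hs] at e01
    refine ⟨by linarith, a 0 1, Or.inl ?_⟩
    apply Subtype.ext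
    rw [coe_T_zpow]
    ext i j
    fin_cases i <;> fin_cases j <;> simp [hp, hs, hr]
  · rw [hp, hs] at e01
    refine ⟨by linarith, -a 0 1, Or.inr ?_⟩
    apply Subtype.ext
    rw [Matrix.SpecialLinearGroup.coe_neg, coe_T_zpow]
    ext i j
    fin_cases i <;> fin_cases j <;> simp [hp, hs, hr]

theorem neg_inv_mul_mul_neg (a x : SL(2, ℤ)) : (-a)⁻¹ * x * (-a) = a⁻¹ * x * a := by
  rw [inv_neg, neg_mul, neg_mul, mul_neg, neg_neg]

/-- If `k h⁻¹ = ± T^e` then `h` and `k` conjugate every power of `T` to the same element. -/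
theorem conj_T_zpow_eq_of_mul_inv {h k : SL(2, ℤ)} {e : ℤ}
    (H : k * h⁻¹ = T ^ e ∨ k * h⁻¹ = -T ^ e) (n : ℤ) :
    k⁻¹ * T ^ n * k = h⁻¹ * T ^ n * h := by
  have key : (T ^ e)⁻¹ * T ^ n * T ^ e = T ^ n := by
    rw [← zpow_neg, ← zpow_add, ← zpow_add]
    congr 1
    ring
  have main : (T ^ e * h)⁻¹ * T ^ n * (T ^ e * h) = h⁻¹ * T ^ n * h := by
    calc (T ^ e * h)⁻¹ * T ^ n * (T ^ e * h) = h⁻¹ * ((T ^ e)⁻¹ * T ^ n * T ^ e) * h := by
          simp only [mul_inv_rev, mul_assoc]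
      _ = h⁻¹ * T ^ n * h := by rw [key]
  rcases H with H | H
  · have hk : k = T ^ e * h := by rw [← H, inv_mul_cancel_right]
    rw [hk, main]
  · have hk : k = -(T ^ e * h) := by rw [← neg_mul, ← H, inv_mul_cancel_right]
    rw [hk, neg_inv_mul_mul_neg, main]

/-- (F2) Conjugation by an integer matrix of positive determinant preserves positive
parabolic elements. -/
theorem isPosPar_of_intertwine {D : Matrix (Fin 2) (Fin 2) ℤ} (hD : 0 < D.det)
    {γ γ' : SL(2, ℤ)}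
    (H : D * (γ : Matrix (Fin 2) (Fin 2) ℤ) = (γ' : Matrix (Fin 2) (Fin 2) ℤ) * D)
    (hγ : IsPosPar γ) : IsPosPar γ' := by
  obtain ⟨h, m, hm, rfl⟩ := hγ
  rw [Matrix.det_fin_two] at hD
  have hM := coe_conj_T_pow h m
  rw [hM] at H
  have e00 := congrFun (congrFun H 0) 0
  have e01 := congrFun (congrFun H 0) 1
  have e10 := congrFun (congrFun H 1) 0
  have e11 := congrFun (congrFun H 1) 1
  simp only [Fin.isValue, Matrix.mul_apply, Fin.sum_univ_two,
      Matrix.of_apply, Matrix.cons_val', Matrix.cons_val_zero, Matrix.cons_val_one,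
      Matrix.cons_val_fin_one] at e00 e01 e10 e11
  have hdeth := det_entries h
  have hmZ : (0 : ℤ) < m := by exact_mod_cast hm
  set Δ := D 0 0 * D 1 1 - D 0 1 * D 1 0 with hΔ
  set X := D 0 0 * h 1 1 - D 0 1 * h 1 0 with hX
  set Y := D 1 0 * h 1 1 - D 1 1 * h 1 0 with hY
  rw [isPosPar_iff, Matrix.trace_fin_two]
  have htr : Δ * (γ' 0 0 + γ' 1 1) = Δ * 2 := by
    rw [hΔ]
    linear_combination (-D 1 1) * e00 + D 1 0 * e01 + D 0 1 * e10 - D 0 0 * e11
  have hsgn : Δ * (γ' 0 1 - γ' 1 0) = m * (X ^ 2 + Y ^ 2) := by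
    rw [hΔ, hX, hY]
    linear_combination D 0 1 * e00 - D 0 0 * e01 + D 1 1 * e10 - D 1 0 * e11
  have hXY : 0 < X ^ 2 + Y ^ 2 := by
    rcases eq_or_ne X 0 with hX0 | hX0
    · rcases eq_or_ne Y 0 with hY0 | hY0
      · exfalso
        have h1 : Δ * h 1 1 = 0 := by
          have : Δ * h 1 1 = D 1 1 * X - D 0 1 * Y := by rw [hΔ, hX, hY]; ring
          rw [this, hX0, hY0]; ring
        have h2 : Δ * h 1 0 = 0 := by
          have : Δ * h 1 0 = D 1 0 * X - D 0 0 * Y := by rw [hΔ, hX, hY]; ring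
          rw [this, hX0, hY0]; ring
        have h11 : h 1 1 = 0 := (mul_eq_zero.mp h1).resolve_left hD.ne'
        have h10 : h 1 0 = 0 := (mul_eq_zero.mp h2).resolve_left hD.ne'
        rw [h11, h10] at hdeth
        simp at hdeth
      · positivity
    · positivity
  refine ⟨mul_left_cancel₀ hD.ne' htr, ?_⟩
  have : 0 < Δ * (γ' 0 1 - γ' 1 0) := by rw [hsgn]; positivity
  exact (mul_pos_iff_of_pos_left hD).mp this

/-- (F2) Positivity of parabolic elements is invariant under conjugation by an integer matrix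
of positive determinant. -/
theorem isPosPar_iff_of_intertwine {D : Matrix (Fin 2) (Fin 2) ℤ} (hD : 0 < D.det)
    {γ γ' : SL(2, ℤ)}
    (H : D * (γ : Matrix (Fin 2) (Fin 2) ℤ) = (γ' : Matrix (Fin 2) (Fin 2) ℤ) * D) :
    IsPosPar γ ↔ IsPosPar γ' := by
  refine ⟨isPosPar_of_intertwine hD H, isPosPar_of_intertwine (D := D.adjugate) ?_ ?_⟩
  · rw [Matrix.det_adjugate]
    simpa using hD
  · have h1 : D.det • (D.adjugate * (γ' : Matrix (Fin 2) (Fin 2) ℤ))
        = D.det • ((γ : Matrix (Fin 2) (Fin 2) ℤ) * D.adjugate) := by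
      calc D.det • (D.adjugate * (γ' : Matrix (Fin 2) (Fin 2) ℤ))
          = D.adjugate * (γ' : Matrix (Fin 2) (Fin 2) ℤ) * (D * D.adjugate) := by
            rw [Matrix.mul_adjugate, Matrix.mul_smul, Matrix.mul_one]
        _ = D.adjugate * ((γ' : Matrix (Fin 2) (Fin 2) ℤ) * D) * D.adjugate := by
            simp only [Matrix.mul_assoc]
        _ = D.adjugate * (D * (γ : Matrix (Fin 2) (Fin 2) ℤ)) * D.adjugate := by rw [H]
        _ = (D.adjugate * D) * (γ : Matrix (Fin 2) (Fin 2) ℤ) * D.adjugate := by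
            simp only [Matrix.mul_assoc]
        _ = D.det • ((γ : Matrix (Fin 2) (Fin 2) ℤ) * D.adjugate) := by
            rw [Matrix.adjugate_mul, Matrix.smul_mul, Matrix.one_mul, Matrix.smul_mul]
    exact smul_right_injective _ hD.ne' h1

/-- The identity is not positive parabolic. -/
theorem not_isPosPar_one : ¬ IsPosPar (1 : SL(2, ℤ)) := by
  rw [isPosPar_iff]
  rintro ⟨-, h⟩
  simp at h

end Fermat.Agent.S41.H62
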