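/-
S41, PAIR sub-leaf (P5) "cusp systems", part 2 (helper62): positive PRIMITIVE parabolic
elements of a subgroup `Γ ≤ SL(2, ℤ)`.

* `IsPPP Γ g`: `g = h⁻¹ T^w h ∈ Γ` with `w > 0` minimal for `h`;
* `exists_isPPP_pow`, `isPPP_pow_unique` (F3): every positive parabolic element of `Γ` is `c ^ e`
  for a unique positive primitive parabolic `c` of `Γ` and a unique `e ≥ 1`;
* `isPPP_iff_not_proper_pow`: primitive = not a proper power of a positive parabolic of `Γ`;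
* `isPPP_map_iff`: invariance under isomorphisms preserving positive parabolics;
* `IsPPP.conj`, `centralizer_isPPP`.
-/
import Mathlib
import Fermat.Agent.S41.H62.CuspBasic

set_option autoImplicit false

open scoped MatrixGroups
open ModularGroup

namespace Fermat.Agent.S41.H62

/-- `g` is a positive primitive parabolic element of `Γ`. -/
def IsPPP (Γ : Subgroup SL(2, ℤ)) (g : SL(2, ℤ)) : Prop :=
  g ∈ Γ ∧ ∃ (h : SL(2, ℤ)) (w : ℕ), 0 < w ∧ g = h⁻¹ * T ^ w * h ∧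
    ∀ k : ℕ, 0 < k → h⁻¹ * T ^ k * h ∈ Γ → w ≤ k

variable {Γ : Subgroup SL(2, ℤ)}

theorem IsPPP.mem {g : SL(2, ℤ)} (hg : IsPPP Γ g) : g ∈ Γ := hg.1

theorem IsPPP.isPosPar {g : SL(2, ℤ)} (hg : IsPPP Γ g) : IsPosPar g := by
  obtain ⟨-, h, w, hw, rfl, -⟩ := hg
  exact ⟨h, w, hw, rfl⟩

theorem conj_zpow_add (h : SL(2, ℤ)) (a b : ℤ) :
    h⁻¹ * T ^ (a + b) * h = (h⁻¹ * T ^ a * h) * (h⁻¹ * T ^ b * h) := by
  rw [zpow_add]
  simp only [mul_assoc, mul_inv_cancel_left]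

theorem conj_zpow_zpow (h : SL(2, ℤ)) (a k : ℤ) :
    (h⁻¹ * T ^ a * h) ^ k = h⁻¹ * T ^ (a * k) * h := by
  have := conj_zpow (a := h⁻¹) (b := T ^ a) (i := k)
  rw [inv_inv] at this
  rw [this, ← zpow_mul]

theorem conj_pow_pow (h : SL(2, ℤ)) (a k : ℕ) :
    (h⁻¹ * T ^ a * h) ^ k = h⁻¹ * T ^ (a * k) * h := by
  have := conj_pow (a := h⁻¹) (b := T ^ a) (i := k)
  rw [inv_inv] at this
  rw [this, ← pow_mul]

/-- The exponents `n` with `h⁻¹ T^n h ∈ Γ` are the multiples of the minimal positive one. -/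
theorem dvd_of_conj_mem {h : SL(2, ℤ)} {w : ℕ} (hw : 0 < w) (hmem : h⁻¹ * T ^ w * h ∈ Γ)
    (hmin : ∀ k : ℕ, 0 < k → h⁻¹ * T ^ k * h ∈ Γ → w ≤ k) {n : ℤ}
    (hn : h⁻¹ * T ^ n * h ∈ Γ) : (w : ℤ) ∣ n := by
  have hwZ : (0 : ℤ) < w := by exact_mod_cast hw
  have hr0 : 0 ≤ n % w := Int.emod_nonneg _ hwZ.ne'
  have hr1 : n % w < w := Int.emod_lt_of_pos _ hwZ
  have hmemr : h⁻¹ * T ^ (n % (w : ℤ)) * h ∈ Γ := by
    have e : n % (w : ℤ) = n + (w : ℤ) * (-(n / w)) := by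
      have := Int.emod_add_mul_ediv n w
      linarith
    rw [e, conj_zpow_add, ← conj_zpow_zpow]
    refine Γ.mul_mem hn (Γ.zpow_mem ?_ _)
    rw [zpow_natCast]
    exact hmem
  rcases hr0.eq_or_lt with h0 | h0
  · exact Int.dvd_of_emod_eq_zero h0.symm
  · exfalso
    have h1 : h⁻¹ * T ^ (n % (w : ℤ)).toNat * h ∈ Γ := by
      rw [← zpow_natCast, Int.toNat_of_nonneg hr0]
      exact hmemr
    have := hmin (n % (w : ℤ)).toNat (by omega) h1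
    omega

theorem dvd_of_conj_mem_nat {h : SL(2, ℤ)} {w : ℕ} (hw : 0 < w) (hmem : h⁻¹ * T ^ w * h ∈ Γ)
    (hmin : ∀ k : ℕ, 0 < k → h⁻¹ * T ^ k * h ∈ Γ → w ≤ k) {n : ℕ}
    (hn : h⁻¹ * T ^ n * h ∈ Γ) : w ∣ n := by
  have : (w : ℤ) ∣ (n : ℤ) := by
    apply dvd_of_conj_mem hw hmem hmin
    rw [zpow_natCast]
    exact hn
  exact_mod_cast this

/-- (F3), existence: a positive parabolic element of `Γ` is a positive power of a positive
primitive parabolic element of `Γ`. -/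
theorem exists_isPPP_pow {g : SL(2, ℤ)} (hg : g ∈ Γ) (hpos : IsPosPar g) :
    ∃ (c : SL(2, ℤ)) (e : ℕ), IsPPP Γ c ∧ 0 < e ∧ g = c ^ e := by
  classical
  obtain ⟨h, m, hm, rfl⟩ := hpos
  have hex : ∃ k : ℕ, 0 < k ∧ h⁻¹ * T ^ k * h ∈ Γ := ⟨m, hm, hg⟩
  obtain ⟨hw, hmem⟩ := Nat.find_spec hex
  have hmin : ∀ k : ℕ, 0 < k → h⁻¹ * T ^ k * h ∈ Γ → Nat.find hex ≤ k :=
    fun k hk hk' => Nat.find_min' hex ⟨hk, hk'⟩
  obtain ⟨e, he⟩ := dvd_of_conj_mem_nat hw hmem hmin hg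
  refine ⟨h⁻¹ * T ^ Nat.find hex * h, e, ⟨hmem, h, _, hw, rfl, hmin⟩, ?_, ?_⟩
  · rcases Nat.eq_zero_or_pos e with h0 | h0
    · rw [h0, mul_zero] at he
      omega
    · exact h0
  · rw [conj_pow_pow, ← he]

/-- (F3), uniqueness. -/
theorem isPPP_pow_unique {c c' : SL(2, ℤ)} (hc : IsPPP Γ c) (hc' : IsPPP Γ c') {e e' : ℕ}
    (he' : 0 < e') (H : c ^ e = c' ^ e') : c = c' ∧ e = e' := by
  obtain ⟨hcΓ, h, w, hw, rfl, hmin⟩ := hc
  obtain ⟨hcΓ', k, w', hw', rfl, hmin'⟩ := hc'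
  rw [conj_pow_pow, conj_pow_pow, ← zpow_natCast, ← zpow_natCast] at H
  have hpos : (0 : ℤ) < ((w' * e' : ℕ) : ℤ) := by
    have := Nat.mul_pos hw' he'
    exact_mod_cast this
  obtain ⟨hmn, f, hf⟩ := conj_T_zpow_rigid hpos H
  have hconj : ∀ n : ℕ, k⁻¹ * T ^ n * k = h⁻¹ * T ^ n * h := by
    intro n
    have := conj_T_zpow_eq_of_mul_inv hf n
    rwa [zpow_natCast] at this
  have h1 : w' ≤ w := hmin' w hw (by rw [hconj]; exact hcΓ)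
  have h2 : w ≤ w' := hmin w' hw' (by rw [← hconj]; exact hcΓ')
  have hww : w = w' := le_antisymm h2 h1
  subst hww
  refine ⟨(hconj w).symm, ?_⟩
  have : w * e = w * e' := by exact_mod_cast hmn
  exact Nat.eq_of_mul_eq_mul_left hw this

/-- A positive primitive parabolic element is the same thing as a positive parabolic element
of `Γ` which is not a proper power of a positive parabolic element of `Γ`. -/
theorem isPPP_iff_not_proper_pow {g : SL(2, ℤ)} :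
    IsPPP Γ g ↔ g ∈ Γ ∧ IsPosPar g ∧
      ∀ g' ∈ Γ, IsPosPar g' → ∀ e : ℕ, g = g' ^ e → e = 1 := by
  constructor
  · intro hg
    refine ⟨hg.mem, hg.isPosPar, ?_⟩
    intro g' hg' hpos' e he
    obtain ⟨c', e', hc', he', rfl⟩ := exists_isPPP_pow hg' hpos'
    have he0 : 0 < e := by
      rcases Nat.eq_zero_or_pos e with h0 | h0
      · exfalso
        rw [h0, pow_zero] at he
        rw [he] at hg
        exact not_isPosPar_one hg.isPosPar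
      · exact h0
    rw [← pow_mul] at he
    have := isPPP_pow_unique hg hc' (e := 1) (e' := e' * e) (Nat.mul_pos he' he0)
      (by rw [pow_one]; exact he)
    exact Nat.eq_one_of_mul_eq_one_left this.2.symm
  · rintro ⟨hg, hpos, hprim⟩
    obtain ⟨c, e, hc, he, rfl⟩ := exists_isPPP_pow hg hpos
    have := hprim c hc.mem hc.isPosPar e rfl
    rw [this, pow_one]
    exact hc

/-- Invariance of `IsPPP` under group isomorphisms which preserve positive parabolics. -/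
theorem isPPP_map {Γ₁ Γ₂ : Subgroup SL(2, ℤ)} (θ : Γ₁ ≃* Γ₂)
    (hθ : ∀ γ : Γ₁, IsPosPar (γ : SL(2, ℤ)) ↔ IsPosPar (θ γ : SL(2, ℤ))) (γ : Γ₁)
    (hγ : IsPPP Γ₁ (γ : SL(2, ℤ))) : IsPPP Γ₂ (θ γ : SL(2, ℤ)) := by
  rw [isPPP_iff_not_proper_pow] at hγ ⊢
  obtain ⟨-, hpos, hprim⟩ := hγ
  refine ⟨(θ γ).2, (hθ γ).mp hpos, ?_⟩
  intro g' hg' hpos' e he
  have h1 : θ (θ.symm ⟨g', hg'⟩) = ⟨g', hg'⟩ := θ.apply_symm_apply _
  have hpos'' : IsPosPar ((θ.symm ⟨g', hg'⟩ : Γ₁) : SL(2, ℤ)) := by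
    rw [hθ, h1]
    exact hpos'
  refine hprim _ (θ.symm ⟨g', hg'⟩).2 hpos'' e ?_
  have h2 : θ γ = θ ((θ.symm ⟨g', hg'⟩) ^ e) := by
    rw [map_pow, h1]
    exact Subtype.ext he
  have h3 := θ.injective h2
  rw [h3]
  rfl

theorem isPPP_map_iff {Γ₁ Γ₂ : Subgroup SL(2, ℤ)} (θ : Γ₁ ≃* Γ₂)
    (hθ : ∀ γ : Γ₁, IsPosPar (γ : SL(2, ℤ)) ↔ IsPosPar (θ γ : SL(2, ℤ))) (γ : Γ₁) :
    IsPPP Γ₁ (γ : SL(2, ℤ)) ↔ IsPPP Γ₂ (θ γ : SL(2, ℤ)) := by
  refine ⟨isPPP_map θ hθ γ, fun h => ?_⟩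
  have := isPPP_map θ.symm (fun δ => by rw [hθ, θ.apply_symm_apply]) (θ γ) h
  rwa [θ.symm_apply_apply] at this

theorem conj_mul_inv (h s x : SL(2, ℤ)) :
    (h * s⁻¹)⁻¹ * x * (h * s⁻¹) = s * (h⁻¹ * x * h) * s⁻¹ := by
  simp only [mul_inv_rev, inv_inv, mul_assoc]

theorem conj_mem_iff {s : SL(2, ℤ)} (hs : s ∈ Γ) (x : SL(2, ℤ)) :
    s * x * s⁻¹ ∈ Γ ↔ x ∈ Γ := by
  constructor
  · intro h
    have := Γ.mul_mem (Γ.mul_mem (Γ.inv_mem hs) h) hs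
    simpa only [mul_assoc, inv_mul_cancel_left, inv_mul_cancel, mul_one] using this
  · intro h
    exact Γ.mul_mem (Γ.mul_mem hs h) (Γ.inv_mem hs)

/-- Conjugates by elements of `Γ` of positive primitive parabolics are such. -/
theorem IsPPP.conj {g s : SL(2, ℤ)} (hg : IsPPP Γ g) (hs : s ∈ Γ) : IsPPP Γ (s * g * s⁻¹) := by
  obtain ⟨hgΓ, h, w, hw, rfl, hmin⟩ := hg
  refine ⟨(conj_mem_iff hs _).mpr hgΓ, h * s⁻¹, w, hw, (conj_mul_inv h s _).symm, ?_⟩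
  intro k hk hk'
  rw [conj_mul_inv, conj_mem_iff hs] at hk'
  exact hmin k hk hk'

/-- Positive powers of positive parabolics are positive parabolic. -/
theorem IsPosPar.pow {g : SL(2, ℤ)} (hg : IsPosPar g) {e : ℕ} (he : 0 < e) : IsPosPar (g ^ e) := by
  obtain ⟨h, m, hm, rfl⟩ := hg
  exact ⟨h, m * e, Nat.mul_pos hm he, conj_pow_pow h m e⟩

/-- The centraliser in `Γ` of a positive primitive parabolic element `c` of `Γ ∋ -1` is
`± c^ℤ`. -/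
theorem IsPPP.centralizer {c u : SL(2, ℤ)} (hc : IsPPP Γ c) (hneg : (-1 : SL(2, ℤ)) ∈ Γ)
    (hu : u ∈ Γ) (hcomm : u * c * u⁻¹ = c) : ∃ k : ℤ, u = c ^ k ∨ u = -c ^ k := by
  obtain ⟨hcΓ, h, w, hw, rfl, hmin⟩ := hc
  have H : h⁻¹ * T ^ (w : ℤ) * h = (h * u⁻¹)⁻¹ * T ^ (w : ℤ) * (h * u⁻¹) := by
    rw [zpow_natCast, conj_mul_inv]
    exact hcomm.symm
  have hwZ : (0 : ℤ) < w := by exact_mod_cast hw
  obtain ⟨-, f, hf⟩ := conj_T_zpow_rigid hwZ H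
  have hdvd : ∀ n : ℤ, h⁻¹ * T ^ n * h ∈ Γ → ∃ k : ℤ, h⁻¹ * T ^ n * h = (h⁻¹ * T ^ w * h) ^ k := by
    intro n hn
    obtain ⟨k, rfl⟩ := dvd_of_conj_mem hw hcΓ hmin hn
    exact ⟨k, by rw [← zpow_natCast T w, conj_zpow_zpow]⟩
  have hinvconj : (h⁻¹ * T ^ f * h)⁻¹ = h⁻¹ * T ^ (-f) * h := by
    rw [zpow_neg]
    simp only [mul_inv_rev, inv_inv, mul_assoc]
  rcases hf with hf | hf
  · have h1 : u⁻¹ = h⁻¹ * T ^ f * h := by
      rw [← hf]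
      simp only [mul_assoc, inv_mul_cancel_left, inv_mul_cancel, mul_one]
    have h2 : u = h⁻¹ * T ^ (-f) * h := by rw [← hinvconj, ← h1, inv_inv]
    obtain ⟨k, hk⟩ := hdvd (-f) (h2 ▸ hu)
    exact ⟨k, Or.inl (by rw [h2, hk])⟩
  · have h1 : u⁻¹ = h⁻¹ * (-T ^ f) * h := by
      rw [← hf]
      simp only [mul_assoc, inv_mul_cancel_left, inv_mul_cancel, mul_one]
    rw [mul_neg, neg_mul] at h1
    have h2 : u = -(h⁻¹ * T ^ (-f) * h) := by rw [← hinvconj, ← inv_neg, ← h1, inv_inv]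
    have h3 : h⁻¹ * T ^ (-f) * h ∈ Γ := by
      have := Γ.mul_mem hneg hu
      rwa [h2, neg_one_mul, neg_neg] at this
    obtain ⟨k, hk⟩ := hdvd (-f) h3
    exact ⟨k, Or.inr (by rw [h2, hk])⟩

end Fermat.Agent.S41.H62
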