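/-
S41, PAIR sub-leaf (P5) "cusp systems", part 3 (helper62).

A cusp system of `Γ ≤ SL(2, ℤ)` is a family of representatives of the `Γ`-conjugacy classes of
positive primitive parabolic elements of `Γ`.

* `IsCuspSystem.exists_equiv` (A4): two cusp systems differ by a bijection and `Γ`-conjugations;
* `IsCuspSystem.map`, `IsCuspSystem.map_of_intertwine` (A2): isomorphisms induced by integer
  matrices of positive determinant carry cusp systems to cusp systems;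
* `isCuspSystem_orbit` (A1): a section of `⟨T⟩ \ SL(2, ℤ) / Γ` gives a cusp system;
* `isCuspSystem_restrict` (A3): the cusps of a subgroup `H ≤ Γ` above the cusps of `Γ`.
-/
import Mathlib
import Fermat.Agent.S41.H62.CuspPrim

set_option autoImplicit false

open scoped MatrixGroups
open ModularGroup

namespace Fermat.Agent.S41.H62

/-- A cusp system of `Γ`: representatives of the `Γ`-conjugacy classes of positive primitive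
parabolic elements of `Γ`. -/
def IsCuspSystem (Γ : Subgroup SL(2, ℤ)) {J : Type*} (c : J → SL(2, ℤ)) : Prop :=
  (∀ j, IsPPP Γ (c j)) ∧ ∀ g, IsPPP Γ g → ∃! j, ∃ s ∈ Γ, g = s * c j * s⁻¹

variable {Γ : Subgroup SL(2, ℤ)}

theorem IsCuspSystem.injective {J : Type*} {c : J → SL(2, ℤ)} (hc : IsCuspSystem Γ c) :
    Function.Injective c := by
  intro j j' h
  obtain ⟨j₀, -, huniq⟩ := hc.2 (c j) (hc.1 j)
  have h1 : j = j₀ := huniq j ⟨1, Γ.one_mem, by simp⟩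
  have h2 : j' = j₀ := huniq j' ⟨1, Γ.one_mem, by simp [h]⟩
  rw [h1, h2]

/-- (A4) Two cusp systems of `Γ` differ by a bijection of the index sets and conjugations
by elements of `Γ`. -/
theorem IsCuspSystem.exists_equiv {J J' : Type*} {c : J → SL(2, ℤ)} {c' : J' → SL(2, ℤ)}
    (hc : IsCuspSystem Γ c) (hc' : IsCuspSystem Γ c') :
    ∃ σ : J ≃ J', ∀ j, ∃ s ∈ Γ, c' (σ j) = s * c j * s⁻¹ := by
  classical
  have key : ∀ j, ∃ j', (∃ s ∈ Γ, c j = s * c' j' * s⁻¹) ∧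
      ∀ y, (∃ s ∈ Γ, c j = s * c' y * s⁻¹) → y = j' := fun j => hc'.2 (c j) (hc.1 j)
  have key' : ∀ j', ∃ j, (∃ s ∈ Γ, c' j' = s * c j * s⁻¹) ∧
      ∀ y, (∃ s ∈ Γ, c' j' = s * c y * s⁻¹) → y = j := fun j' => hc.2 (c' j') (hc'.1 j')
  choose f hf hfu using key
  choose f' hf' hfu' using key'
  have flip : ∀ {a b s : SL(2, ℤ)}, s ∈ Γ → a = s * b * s⁻¹ → ∃ s' ∈ Γ, b = s' * a * s'⁻¹ := by
    intro a b s hs h
    refine ⟨s⁻¹, Γ.inv_mem hs, ?_⟩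
    rw [h]
    simp only [inv_inv, mul_assoc, inv_mul_cancel_left, inv_mul_cancel, mul_one]
  refine ⟨⟨f, f', ?_, ?_⟩, ?_⟩
  · intro j
    obtain ⟨s, hs, h⟩ := hf j
    exact (hfu' (f j) j (flip hs h)).symm
  · intro j'
    obtain ⟨s, hs, h⟩ := hf' j'
    exact (hfu (f' j') j' (flip hs h)).symm
  · intro j
    obtain ⟨s, hs, h⟩ := hf j
    exact flip hs h

/-- (A2) An isomorphism preserving positive parabolics maps cusp systems to cusp systems. -/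
theorem IsCuspSystem.map {Γ₁ Γ₂ : Subgroup SL(2, ℤ)} (θ : Γ₁ ≃* Γ₂)
    (hθ : ∀ γ : Γ₁, IsPosPar (γ : SL(2, ℤ)) ↔ IsPosPar (θ γ : SL(2, ℤ)))
    {J : Type*} {c : J → Γ₁} (hc : IsCuspSystem Γ₁ (fun j => (c j : SL(2, ℤ)))) :
    IsCuspSystem Γ₂ (fun j => (θ (c j) : SL(2, ℤ))) := by
  refine ⟨fun j => isPPP_map θ hθ (c j) (hc.1 j), ?_⟩
  intro g hg
  have hgΓ : g ∈ Γ₂ := hg.mem
  have h1 : θ (θ.symm ⟨g, hgΓ⟩) = ⟨g, hgΓ⟩ := θ.apply_symm_apply _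
  have hγ : IsPPP Γ₁ ((θ.symm ⟨g, hgΓ⟩ : Γ₁) : SL(2, ℤ)) := by
    rw [isPPP_map_iff θ hθ, h1]
    exact hg
  obtain ⟨j, ⟨s, hs, hj⟩, huniq⟩ := hc.2 _ hγ
  refine ⟨j, ⟨(θ ⟨s, hs⟩ : SL(2, ℤ)), (θ ⟨s, hs⟩).2, ?_⟩, ?_⟩
  · have h2 : θ.symm ⟨g, hgΓ⟩ = ⟨s, hs⟩ * c j * ⟨s, hs⟩⁻¹ := Subtype.ext hj
    have h3 : (⟨g, hgΓ⟩ : Γ₂) = θ ⟨s, hs⟩ * θ (c j) * (θ ⟨s, hs⟩)⁻¹ := by
      rw [← h1, h2, map_mul, map_mul, map_inv]
    exact congrArg Subtype.val h3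
  · rintro j' ⟨s', hs', hj'⟩
    refine huniq j' ⟨(θ.symm ⟨s', hs'⟩ : SL(2, ℤ)), (θ.symm ⟨s', hs'⟩).2, ?_⟩
    have h3 : (⟨g, hgΓ⟩ : Γ₂) = ⟨s', hs'⟩ * θ (c j') * ⟨s', hs'⟩⁻¹ := Subtype.ext hj'
    have h4 : θ.symm ⟨g, hgΓ⟩ = θ.symm ⟨s', hs'⟩ * c j' * (θ.symm ⟨s', hs'⟩)⁻¹ := by
      rw [h3, map_mul, map_mul, map_inv, θ.symm_apply_apply]
    exact congrArg Subtype.val h4

/-- (A2) An isomorphism `θ : Γ₁ ≃ Γ₂` with `D γ = θ(γ) D` for an integer matrix `D` of positive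
determinant maps cusp systems of `Γ₁` to cusp systems of `Γ₂`. -/
theorem IsCuspSystem.map_of_intertwine {Γ₁ Γ₂ : Subgroup SL(2, ℤ)} (θ : Γ₁ ≃* Γ₂)
    {D : Matrix (Fin 2) (Fin 2) ℤ} (hD : 0 < D.det)
    (H : ∀ γ : Γ₁, D * ((γ : SL(2, ℤ)) : Matrix (Fin 2) (Fin 2) ℤ)
      = ((θ γ : SL(2, ℤ)) : Matrix (Fin 2) (Fin 2) ℤ) * D)
    {J : Type*} {c : J → Γ₁} (hc : IsCuspSystem Γ₁ (fun j => (c j : SL(2, ℤ)))) :
    IsCuspSystem Γ₂ (fun j => (θ (c j) : SL(2, ℤ))) :=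
  hc.map θ (fun γ => isPosPar_iff_of_intertwine hD (H γ))

/-- `IsPPP` is invariant under isomorphisms induced by integer matrices of positive
determinant. -/
theorem isPPP_iff_of_intertwine {Γ₁ Γ₂ : Subgroup SL(2, ℤ)} (θ : Γ₁ ≃* Γ₂)
    {D : Matrix (Fin 2) (Fin 2) ℤ} (hD : 0 < D.det)
    (H : ∀ γ : Γ₁, D * ((γ : SL(2, ℤ)) : Matrix (Fin 2) (Fin 2) ℤ)
      = ((θ γ : SL(2, ℤ)) : Matrix (Fin 2) (Fin 2) ℤ) * D) (γ : Γ₁) :
    IsPPP Γ₁ (γ : SL(2, ℤ)) ↔ IsPPP Γ₂ (θ γ : SL(2, ℤ)) :=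
  isPPP_map_iff θ (fun γ => isPosPar_iff_of_intertwine hD (H γ)) γ

theorem T_zpow_conj (e n : ℤ) : (T ^ e)⁻¹ * T ^ n * T ^ e = T ^ n := by
  rw [← zpow_neg, ← zpow_add, ← zpow_add]
  congr 1
  ring

/-- Rigidity when `-1 ∈ Γ`: the conjugating element is unique up to `T^e` on the left and a
central element of `Γ` on the right. -/
theorem exists_eq_T_zpow_mul_of_conj_eq (hneg : (-1 : SL(2, ℤ)) ∈ Γ) {h k : SL(2, ℤ)} {m n : ℤ}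
    (hn : 0 < n) (H : h⁻¹ * T ^ m * h = k⁻¹ * T ^ n * k) :
    m = n ∧ ∃ e : ℤ, ∃ z ∈ Γ, k = T ^ e * h * z := by
  obtain ⟨hmn, e, he⟩ := conj_T_zpow_rigid hn H
  refine ⟨hmn, e, ?_⟩
  rcases he with he | he
  · exact ⟨1, Γ.one_mem, by rw [mul_one, ← he, inv_mul_cancel_right]⟩
  · exact ⟨-1, hneg, by rw [mul_neg_one, ← neg_mul, ← he, inv_mul_cancel_right]⟩

/-- Conjugating a power of `T` by `T^f * h * s`. -/
theorem conj_T_zpow_mul (h s : SL(2, ℤ)) (f n : ℤ) :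
    (T ^ f * h * s)⁻¹ * T ^ n * (T ^ f * h * s) = s⁻¹ * (h⁻¹ * T ^ n * h) * s := by
  have key : ∀ X : SL(2, ℤ), (T ^ f)⁻¹ * (T ^ n * (T ^ f * X)) = T ^ n * X := fun X => by
    rw [← mul_assoc, ← mul_assoc, T_zpow_conj]
  simp only [mul_inv_rev, mul_assoc, key]

/-- (A1) ORBIT SYSTEM.  Let `-1 ∈ Γ` and let `h j` (`j : J`) represent the double cosets
`⟨T⟩ \ SL(2, ℤ) / Γ` (i.e. the `T`-orbits on `SL(2, ℤ) / Γ`), with `w j` the least positive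
exponent such that `(h j)⁻¹ T^(w j) (h j) ∈ Γ` (the orbit length).  Then the elements
`(h j)⁻¹ T^(w j) (h j)` form a cusp system of `Γ`. -/
theorem isCuspSystem_orbit (hneg : (-1 : SL(2, ℤ)) ∈ Γ) {J : Type*} (h : J → SL(2, ℤ))
    (w : J → ℕ)
    (hw : ∀ j, 0 < w j ∧ (h j)⁻¹ * T ^ w j * h j ∈ Γ ∧
      ∀ k : ℕ, 0 < k → (h j)⁻¹ * T ^ k * h j ∈ Γ → w j ≤ k)
    (hcov : ∀ g : SL(2, ℤ), ∃ j, ∃ k : ℤ, ∃ s ∈ Γ, g = T ^ k * h j * s)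
    (hinj : ∀ j j', (∃ k : ℤ, ∃ s ∈ Γ, h j' = T ^ k * h j * s) → j = j') :
    IsCuspSystem Γ (fun j => (h j)⁻¹ * T ^ w j * h j) := by
  refine ⟨fun j => ⟨(hw j).2.1, h j, w j, (hw j).1, rfl, (hw j).2.2⟩, ?_⟩
  rintro g ⟨hgΓ, k, m, hm, rfl, hmin⟩
  obtain ⟨j, f, s, hs, hk⟩ := hcov k
  have hconj : ∀ n : ℕ, k⁻¹ * T ^ n * k = s⁻¹ * ((h j)⁻¹ * T ^ n * h j) * (s⁻¹)⁻¹ := by
    intro n
    rw [inv_inv, hk, ← zpow_natCast, conj_T_zpow_mul]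
  have hmem : ∀ n : ℕ, k⁻¹ * T ^ n * k ∈ Γ ↔ (h j)⁻¹ * T ^ n * h j ∈ Γ := by
    intro n
    rw [hconj, conj_mem_iff (Γ.inv_mem hs)]
  have hwm : w j = m :=
    le_antisymm ((hw j).2.2 m hm ((hmem m).mp hgΓ)) (hmin (w j) (hw j).1 ((hmem _).mpr (hw j).2.1))
  refine ⟨j, ⟨s⁻¹, Γ.inv_mem hs, ?_⟩, ?_⟩
  · show k⁻¹ * T ^ m * k = s⁻¹ * ((h j)⁻¹ * T ^ w j * h j) * (s⁻¹)⁻¹
    rw [hwm]
    exact hconj m
  · rintro j' ⟨s', hs', hj'⟩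
    have hj'' : k⁻¹ * T ^ (m : ℤ) * k
        = (h j' * s'⁻¹)⁻¹ * T ^ (w j' : ℤ) * (h j' * s'⁻¹) := by
      rw [conj_mul_inv, zpow_natCast, zpow_natCast]
      exact hj'
    have hpos : (0 : ℤ) < (w j' : ℤ) := by exact_mod_cast (hw j').1
    obtain ⟨-, e, z, hz, he⟩ := exists_eq_T_zpow_mul_of_conj_eq hneg hpos hj''
    refine (hinj j j' ⟨e + f, s * z * s', Γ.mul_mem (Γ.mul_mem hs hz) hs', ?_⟩).symm
    have h1 : h j' = T ^ e * k * z * s' := by rw [← he, inv_mul_cancel_right]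
    rw [h1, hk, zpow_add]
    simp only [mul_assoc]

/-- (A3) RESTRICTION.  Let `H ≤ Γ`, `-1 ∈ H`, and let `c` be a cusp system of `Γ`.  Let the pairs
`(j i, H (t i))` (`i : I`, `t i ∈ Γ`) represent, for every `j₀`, the orbits of `⟨c j₀⟩` on
`H \ Γ`, and let `e i` be the length of the orbit of `H (t i)`.  Then the elements
`t i * c (j i) ^ e i * (t i)⁻¹` form a cusp system of `H`. -/
theorem isCuspSystem_restrict {H : Subgroup SL(2, ℤ)} (hH : H ≤ Γ) (hneg : (-1 : SL(2, ℤ)) ∈ H)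
    {J : Type*} {c : J → SL(2, ℤ)} (hc : IsCuspSystem Γ c)
    {I : Type*} (j : I → J) (t : I → SL(2, ℤ)) (e : I → ℕ) (ht : ∀ i, t i ∈ Γ)
    (he : ∀ i, 0 < e i ∧ t i * c (j i) ^ e i * (t i)⁻¹ ∈ H ∧
      ∀ k : ℕ, 0 < k → t i * c (j i) ^ k * (t i)⁻¹ ∈ H → e i ≤ k)
    (hcov : ∀ j₀, ∀ g ∈ Γ, ∃ i, j i = j₀ ∧ ∃ k : ℤ, ∃ s ∈ H, g = s * t i * c j₀ ^ k)
    (hinj : ∀ i i', j i = j i' → (∃ k : ℤ, ∃ s ∈ H, t i' = s * t i * c (j i) ^ k) → i = i') :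
    IsCuspSystem H (fun i => t i * c (j i) ^ e i * (t i)⁻¹) := by
  have hPPP : ∀ i, IsPPP H (t i * c (j i) ^ e i * (t i)⁻¹) := by
    intro i
    obtain ⟨hcΓ, h, w, hw, hceq, hmin⟩ := hc.1 (j i)
    have hpow : ∀ k : ℕ, t i * c (j i) ^ k * (t i)⁻¹
        = (h * (t i)⁻¹)⁻¹ * T ^ (w * k) * (h * (t i)⁻¹) := by
      intro k
      rw [conj_mul_inv, hceq, conj_pow_pow]
    refine ⟨(he i).2.1, h * (t i)⁻¹, w * e i, Nat.mul_pos hw (he i).1, hpow _, ?_⟩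
    intro k hk hk'
    have h1 : h⁻¹ * T ^ k * h ∈ Γ := by
      have := hH hk'
      rwa [conj_mul_inv, conj_mem_iff (ht i)] at this
    rw [hceq] at hcΓ
    obtain ⟨k', rfl⟩ := dvd_of_conj_mem_nat hw hcΓ hmin h1
    have hk'0 : 0 < k' := Nat.pos_of_mul_pos_left hk
    rw [← hpow] at hk'
    exact Nat.mul_le_mul_left w ((he i).2.2 k' hk'0 hk')
  refine ⟨hPPP, ?_⟩
  intro g hg
  -- existence
  obtain ⟨c', e', hc', he', hgc⟩ := exists_isPPP_pow (hH hg.mem) hg.isPosPar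
  obtain ⟨j₀, ⟨s, hs, hcj⟩, -⟩ := hc.2 c' hc'
  obtain ⟨i, hji, k, s', hs', hsk⟩ := hcov j₀ s hs
  subst hji
  have hconj : ∀ n : ℕ, c' ^ n = s' * (t i * c (j i) ^ n * (t i)⁻¹) * s'⁻¹ := by
    intro n
    have hcomm : c (j i) ^ k * c (j i) ^ n * (c (j i) ^ k)⁻¹ = c (j i) ^ n := by
      rw [← zpow_natCast, ← zpow_neg, ← zpow_add, ← zpow_add]
      congr 1
      ring
    have h1 : c' ^ n = s * c (j i) ^ n * s⁻¹ := by rw [hcj, conj_pow]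
    rw [h1, hsk]
    have h2 : s' * t i * c (j i) ^ k * c (j i) ^ n * (s' * t i * c (j i) ^ k)⁻¹
        = s' * (t i * (c (j i) ^ k * c (j i) ^ n * (c (j i) ^ k)⁻¹) * (t i)⁻¹) * s'⁻¹ := by
      simp only [mul_inv_rev, mul_assoc]
    rw [h2, hcomm]
  have hmem : ∀ n : ℕ, c' ^ n ∈ H ↔ t i * c (j i) ^ n * (t i)⁻¹ ∈ H := by
    intro n
    rw [hconj, conj_mem_iff hs']
  have h1 : e i ≤ e' := (he i).2.2 e' he' ((hmem e').mp (hgc ▸ hg.mem))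
  have h2 : e' ≤ e i := by
    have hxH : c' ^ e i ∈ H := (hmem _).mpr (he i).2.1
    obtain ⟨y, a, hy, ha, hxy⟩ := exists_isPPP_pow hxH (hc'.isPosPar.pow (he i).1)
    have h3 : g ^ e i = y ^ (a * e') := by
      rw [pow_mul, ← hxy, hgc, ← pow_mul, ← pow_mul, mul_comm]
    have := (isPPP_pow_unique hg hy (Nat.mul_pos ha he') h3).2
    rw [this]
    exact Nat.le_mul_of_pos_left _ ha
  have hee : e' = e i := le_antisymm h2 h1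
  have hg_eq : g = s' * (t i * c (j i) ^ e i * (t i)⁻¹) * s'⁻¹ := by
    rw [hgc, hee]
    exact hconj _
  refine ⟨i, ⟨s', hs', hg_eq⟩, ?_⟩
  -- uniqueness
  rintro i' ⟨s₂, hs₂, hg₂⟩
  symm
  set u : SL(2, ℤ) := s₂⁻¹ * s' with hu
  have huH : u ∈ H := H.mul_mem (H.inv_mem hs₂) hs'
  set v : SL(2, ℤ) := (t i')⁻¹ * u * t i with hv
  have hvΓ : v ∈ Γ := Γ.mul_mem (Γ.mul_mem (Γ.inv_mem (ht i')) (hH huH)) (ht i)
  have hpow : c (j i') ^ e i' = (v * c (j i) * v⁻¹) ^ e i := by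
    rw [conj_pow, hv, hu]
    have h3 : s₂ * (t i' * c (j i') ^ e i' * (t i')⁻¹) * s₂⁻¹
        = s' * (t i * c (j i) ^ e i * (t i)⁻¹) * s'⁻¹ := by rw [← hg₂, ← hg_eq]
    have h4 : c (j i') ^ e i' = (t i')⁻¹ * (s₂⁻¹ * (s₂ * (t i' * c (j i') ^ e i' * (t i')⁻¹) * s₂⁻¹)
        * s₂) * t i' := by
      simp only [mul_assoc, inv_mul_cancel_left, inv_mul_cancel, mul_one]
    rw [h4, h3]
    simp only [mul_inv_rev, inv_inv, mul_assoc]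
  obtain ⟨hcc, -⟩ := isPPP_pow_unique (hc.1 (j i')) ((hc.1 (j i)).conj hvΓ) (he i).1 hpow
  obtain ⟨j₁, -, huniq⟩ := hc.2 (c (j i')) (hc.1 (j i'))
  have hj1 : j i' = j₁ := huniq (j i') ⟨1, Γ.one_mem, by simp⟩
  have hj2 : j i = j₁ := huniq (j i) ⟨v, hvΓ, hcc⟩
  have hjj : j i = j i' := by rw [hj1, hj2]
  rw [← hjj] at hcc
  obtain ⟨k₀, hk₀⟩ := (hc.1 (j i)).centralizer (hH hneg) hvΓ hcc.symm
  refine hinj i i' hjj ?_
  have ht' : t i' = u * t i * v⁻¹ := by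
    rw [hv]
    simp only [mul_inv_rev, inv_inv, mul_assoc, mul_inv_cancel_left]
  rcases hk₀ with hk₀ | hk₀
  · refine ⟨-k₀, u, huH, ?_⟩
    rw [ht', hk₀, zpow_neg]
  · refine ⟨-k₀, -u, ?_, ?_⟩
    · have := H.mul_mem hneg huH
      rwa [neg_one_mul] at this
    · rw [ht', hk₀, zpow_neg, inv_neg, mul_neg, neg_mul, neg_mul]

end Fermat.Agent.S41.H62
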