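/-
S41, PAIR sub-leaf (P5) "cusp systems", part 4 (helper62): the orbit cusp system in the landed
coset model `S16.H97.Cos Γ = SL(2, ℤ) ⧸ Γ` (spec (S3) of helper33).

* `sum_eq_sum_orbit_section`: a sum over a finite `G`-set is the sum over a section of the
  `g`-orbits of the sums over the orbits;
* `IsOrbitSection Γ h w`: the cosets `h j • base` represent the `T`-orbits on `Cos Γ` and `w j`
  is the length of the orbit of `h j • base`;
* `IsOrbitSection.isCuspSystem`: then `(h j)⁻¹ T^(w j) (h j)` is a cusp system of `Γ` (`-1 ∈ Γ`);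
* `IsOrbitSection.sum_eq`: `∑ x, f x = ∑ j, ∑ i < w j, f (T^i • h j • base)`;
* `exists_isOrbitSection`: orbit sections exist (finite index), with a finite index type;
* `IsOrbitSection.sum_kappa_eq`: the sum of a `κ` with the evaluation property of
  `S41.H33.exists_kappa0` over the orbit cusp system is `∑ x, ζT x`;
* `IsCuspSystem.sum_eq_sum`: sums of conjugation-invariant functions over two cusp systems agree;
* `IsOrbitSection.sum_hom_eq_zero`, `IsCuspSystem.sum_hom_eq_zero` (BDY): a homomorphism to a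
  torsion-free group sums to `0` over any cusp system;
* `IsCuspSystem.finite`: the index type of a cusp system of a finite-index subgroup is finite.
-/
import Mathlib
import Fermat.Agent.S16.H97.Lift
import Fermat.Agent.S41.H62.CuspSystem

set_option autoImplicit false

open scoped MatrixGroups
open ModularGroup
open Fermat.Agent.S16.H97

namespace Fermat.Agent.S41.H62

/-- The given exponent is the period, if it is the least positive fixing exponent. -/
theorem eq_period_of_minimal {G X : Type*} [Group G] [MulAction G X] {g : G} {x : X} {w : ℕ}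
    (hpos : 0 < w) (hfix : g ^ w • x = x)
    (hmin : ∀ k : ℕ, 0 < k → g ^ k • x = x → w ≤ k) : w = MulAction.period g x :=
  le_antisymm (hmin _ (MulAction.period_pos_of_fixed hpos hfix) (MulAction.pow_period_smul g x))
    (MulAction.period_le_of_fixed hpos hfix)

/-- Orbit decomposition of a finite sum along a section of the orbits of one element. -/
theorem sum_eq_sum_orbit_section {G X A J : Type*} [Group G] [MulAction G X] [Fintype X]
    [Fintype J] [AddCommMonoid A] (g : G) (x : J → X) (w : J → ℕ)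
    (hw : ∀ j, 0 < w j ∧ g ^ w j • x j = x j ∧ ∀ k : ℕ, 0 < k → g ^ k • x j = x j → w j ≤ k)
    (hcov : ∀ y : X, ∃ j, ∃ k : ℤ, y = g ^ k • x j)
    (hinj : ∀ j j', (∃ k : ℤ, x j' = g ^ k • x j) → j = j') (f : X → A) :
    ∑ y, f y = ∑ j, ∑ i ∈ Finset.range (w j), f (g ^ i • x j) := by
  classical
  have hper : ∀ j, w j = MulAction.period g (x j) := fun j =>
    eq_period_of_minimal (hw j).1 (hw j).2.1 (hw j).2.2
  rw [Finset.sum_sigma']
  symm
  refine Finset.sum_nbij (fun p => g ^ p.2 • x p.1) (fun _ _ => Finset.mem_univ _) ?_ ?_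
    (fun _ _ => rfl)
  · rintro ⟨j, i⟩ hp ⟨j', i'⟩ hp' heq
    have hi : i < w j := by simpa using hp
    have hi' : i' < w j' := by simpa using hp'
    have heq' : g ^ i • x j = g ^ i' • x j' := heq
    have hjj : j = j' := by
      refine hinj j j' ⟨(i : ℤ) - i', ?_⟩
      rw [sub_eq_neg_add, zpow_add, mul_smul, zpow_natCast, heq', ← zpow_natCast, ← mul_smul,
        ← zpow_add, neg_add_cancel, zpow_zero, one_smul]
    subst hjj
    have hfix : g ^ ((i : ℤ) - i') • x j = x j := by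
      rw [sub_eq_neg_add, zpow_add, mul_smul, zpow_natCast, heq', ← zpow_natCast, ← mul_smul,
        ← zpow_add, neg_add_cancel, zpow_zero, one_smul]
    rw [MulAction.zpow_smul_eq_iff_period_dvd, ← hper] at hfix
    have habs : |(i : ℤ) - i'| < (w j : ℤ) := by
      rw [abs_lt]
      constructor <;> omega
    have h0 := Int.eq_zero_of_abs_lt_dvd hfix habs
    have : i = i' := by omega
    rw [this]
  · intro y _
    obtain ⟨j, k, rfl⟩ := hcov y
    have hwpos : (0 : ℤ) < (w j : ℤ) := by exact_mod_cast (hw j).1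
    refine ⟨⟨j, (k % (w j : ℤ)).toNat⟩, ?_, ?_⟩
    · have h1 : k % (w j : ℤ) < w j := Int.emod_lt_of_pos _ hwpos
      have h0 : 0 ≤ k % (w j : ℤ) := Int.emod_nonneg _ hwpos.ne'
      simp only [Finset.coe_sigma, Finset.coe_univ, Set.mem_sigma_iff, Set.mem_univ,
        Finset.coe_range, Set.mem_Iio, true_and]
      omega
    · show g ^ (k % (w j : ℤ)).toNat • x j = g ^ k • x j
      rw [← zpow_natCast, Int.toNat_of_nonneg (Int.emod_nonneg _ hwpos.ne'), hper,
        MulAction.zpow_mod_period_smul]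

variable {Γ : Subgroup SL(2, ℤ)}

theorem smul_base_eq_smul_base_iff (g h : SL(2, ℤ)) :
    g • base Γ = h • base Γ ↔ h⁻¹ * g ∈ Γ := by
  rw [← inv_smul_eq_iff, ← mul_smul]
  exact ⟨mem_of_smul_base, smul_base_of_mem⟩

theorem T_pow_smul_eq_iff (h : SL(2, ℤ)) (k : ℕ) :
    T ^ k • h • base Γ = h • base Γ ↔ h⁻¹ * T ^ k * h ∈ Γ := by
  rw [← mul_smul, smul_base_eq_smul_base_iff, mul_assoc]

/-- `h j • base` (`j : J`) is a set of representatives of the `T`-orbits on `Cos Γ`, and `w j` is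
the length of the orbit of `h j • base`. -/
def IsOrbitSection (Γ : Subgroup SL(2, ℤ)) {J : Type*} (h : J → SL(2, ℤ)) (w : J → ℕ) : Prop :=
  (∀ j, 0 < w j ∧ T ^ w j • h j • base Γ = h j • base Γ ∧
    ∀ k : ℕ, 0 < k → T ^ k • h j • base Γ = h j • base Γ → w j ≤ k) ∧
  (∀ x : Cos Γ, ∃ j, ∃ k : ℤ, x = T ^ k • h j • base Γ) ∧
  (∀ j j', (∃ k : ℤ, h j' • base Γ = T ^ k • h j • base Γ) → j = j')

theorem IsOrbitSection.mem {J : Type*} {h : J → SL(2, ℤ)} {w : J → ℕ}
    (H : IsOrbitSection Γ h w) (j : J) : (h j)⁻¹ * T ^ w j * h j ∈ Γ :=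
  (T_pow_smul_eq_iff (h j) (w j)).mp (H.1 j).2.1

/-- (A1) in the coset model: an orbit section gives a cusp system. -/
theorem IsOrbitSection.isCuspSystem (hneg : (-1 : SL(2, ℤ)) ∈ Γ) {J : Type*}
    {h : J → SL(2, ℤ)} {w : J → ℕ} (H : IsOrbitSection Γ h w) :
    IsCuspSystem Γ (fun j => (h j)⁻¹ * T ^ w j * h j) := by
  obtain ⟨hw, hcov, hinj⟩ := H
  refine isCuspSystem_orbit hneg h w ?_ ?_ ?_
  · intro j
    refine ⟨(hw j).1, (T_pow_smul_eq_iff _ _).mp (hw j).2.1, fun k hk hk' => ?_⟩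
    exact (hw j).2.2 k hk ((T_pow_smul_eq_iff _ _).mpr hk')
  · intro g
    obtain ⟨j, k, hk⟩ := hcov (g • base Γ)
    rw [← mul_smul, smul_base_eq_smul_base_iff] at hk
    exact ⟨j, k, _, hk, by rw [mul_inv_cancel_left]⟩
  · rintro j j' ⟨k, s, hs, hk⟩
    refine hinj j j' ⟨k, ?_⟩
    rw [hk, mul_smul, mul_smul, smul_base_of_mem hs]

/-- Orbit decomposition of a sum over `Cos Γ` along an orbit section. -/
theorem IsOrbitSection.sum_eq [Fintype (Cos Γ)] {J : Type*} [Fintype J] {h : J → SL(2, ℤ)}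
    {w : J → ℕ} (H : IsOrbitSection Γ h w) {A : Type*} [AddCommMonoid A] (f : Cos Γ → A) :
    ∑ x, f x = ∑ j, ∑ i ∈ Finset.range (w j), f (T ^ i • h j • base Γ) :=
  sum_eq_sum_orbit_section T (fun j => h j • base Γ) w H.1 H.2.1 H.2.2 f

/-- Existence of orbit sections for subgroups of finite index. -/
theorem exists_isOrbitSection (Γ : Subgroup SL(2, ℤ)) [Finite (Cos Γ)] :
    ∃ (J : Type) (_ : Fintype J) (h : J → SL(2, ℤ)) (w : J → ℕ), IsOrbitSection Γ h w := by
  classical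
  let J : Type := MulAction.orbitRel.Quotient (Subgroup.zpowers (T : SL(2, ℤ))) (Cos Γ)
  have hfin : Finite J := Quotient.finite _
  have hJ : Fintype J := Fintype.ofFinite J
  have hout : ∀ j : J, rep Γ (Quotient.out j) • base Γ = Quotient.out j :=
    fun j => rep_smul_base _
  -- a common positive exponent fixing everything
  obtain ⟨n, hn, hfixn⟩ : ∃ n : ℕ, 0 < n ∧ ∀ x : Cos Γ, T ^ n • x = x := by
    have hfo : IsOfFinOrder (MulAction.toPermHom SL(2, ℤ) (Cos Γ) T) := isOfFinOrder_of_finite _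
    obtain ⟨n, hn, hpow⟩ := hfo.exists_pow_eq_one
    refine ⟨n, hn, fun x => ?_⟩
    rw [← map_pow] at hpow
    have := congrArg (fun σ : Equiv.Perm (Cos Γ) => σ x) hpow
    simpa using this
  refine ⟨J, hJ, fun j => rep Γ (Quotient.out j),
    fun j => MulAction.period (T : SL(2, ℤ)) (Quotient.out j), ?_, ?_, ?_⟩
  · intro j
    simp only [hout]
    exact ⟨MulAction.period_pos_of_fixed hn (hfixn _), MulAction.pow_period_smul _ _,
      fun k hk hk' => MulAction.period_le_of_fixed hk hk'⟩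
  · intro x
    refine ⟨Quotient.mk'' x, ?_⟩
    have h1 : (Quotient.out (Quotient.mk'' x : J) : Cos Γ) ∈
        MulAction.orbit (Subgroup.zpowers (T : SL(2, ℤ))) x := by
      rw [← MulAction.orbitRel_apply]
      exact Quotient.exact (Quotient.out_eq (Quotient.mk'' x : J))
    obtain ⟨⟨t, k, rfl⟩, ht⟩ := h1
    refine ⟨-k, ?_⟩
    rw [hout, ← ht]
    show x = T ^ (-k) • T ^ k • x
    rw [← mul_smul, ← zpow_add, neg_add_cancel, zpow_zero, one_smul]
  · rintro j j' ⟨k, hk⟩
    rw [hout, hout] at hk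
    have h1 : (Quotient.mk'' (Quotient.out j') : J) = Quotient.mk'' (Quotient.out j) := by
      apply Quotient.sound
      show (MulAction.orbitRel _ _) _ _
      rw [MulAction.orbitRel_apply]
      exact ⟨⟨T ^ k, k, rfl⟩, hk.symm⟩
    have h2 : (Quotient.mk'' (Quotient.out j') : J) = j' := Quotient.out_eq j'
    have h3 : (Quotient.mk'' (Quotient.out j) : J) = j := Quotient.out_eq j
    rw [h2, h3] at h1
    exact h1.symm

/-- Evaluation of a function `κ` on `Γ` with `κ (r⁻¹ T^w r) = ∑ i < w, ζT (T^i • r • base)`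
(the shape of `S41.H33.exists_kappa0`) over the orbit cusp system. -/
theorem IsOrbitSection.sum_kappa_eq [Fintype (Cos Γ)] {J : Type*} [Fintype J]
    {h : J → SL(2, ℤ)} {w : J → ℕ} (H : IsOrbitSection Γ h w) {A : Type*} [AddCommMonoid A]
    (κ : Γ → A) (ζT : Cos Γ → A)
    (hκ : ∀ (r : SL(2, ℤ)) (w : ℕ) (hr : r⁻¹ * T ^ w * r ∈ Γ),
      κ ⟨r⁻¹ * T ^ w * r, hr⟩ = ∑ i ∈ Finset.range w, ζT (T ^ i • r • base Γ)) :
    ∑ j, κ ⟨(h j)⁻¹ * T ^ w j * h j, H.mem j⟩ = ∑ x, ζT x := by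
  rw [H.sum_eq ζT]
  exact Finset.sum_congr rfl fun j _ => hκ (h j) (w j) (H.mem j)

/-- Sums of a function on `Γ`, invariant under `Γ`-conjugation at positive primitive parabolic
elements, over two cusp systems agree. -/
theorem IsCuspSystem.sum_eq_sum {J J' : Type*} [Fintype J] [Fintype J'] {c : J → SL(2, ℤ)}
    {c' : J' → SL(2, ℤ)} (hc : IsCuspSystem Γ c) (hc' : IsCuspSystem Γ c') {A : Type*}
    [AddCommMonoid A] (κ : Γ → A)
    (hκ : ∀ g s : Γ, IsPPP Γ (g : SL(2, ℤ)) → κ (s * g * s⁻¹) = κ g) :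
    ∑ j, κ ⟨c j, (hc.1 j).mem⟩ = ∑ j', κ ⟨c' j', (hc'.1 j').mem⟩ := by
  obtain ⟨σ, hσ⟩ := hc.exists_equiv hc'
  rw [← Equiv.sum_comp σ (fun j' => κ ⟨c' j', (hc'.1 j').mem⟩)]
  refine Finset.sum_congr rfl fun j _ => ?_
  obtain ⟨s, hs, hj⟩ := hσ j
  have h1 : (⟨c' (σ j), (hc'.1 (σ j)).mem⟩ : Γ) = ⟨s, hs⟩ * ⟨c j, (hc.1 j).mem⟩ * ⟨s, hs⟩⁻¹ :=
    Subtype.ext hj
  rw [h1, hκ _ _ (hc.1 j)]

/-- (BDY) for the orbit cusp system: a homomorphism to a torsion-free group sums to zero. -/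
theorem IsOrbitSection.sum_hom_eq_zero [Fintype (Cos Γ)] {J : Type*} [Fintype J]
    {h : J → SL(2, ℤ)} {w : J → ℕ} (H : IsOrbitSection Γ h w) {A : Type*} [AddCommGroup A]
    [IsAddTorsionFree A] (χ : Additive Γ →+ A) :
    ∑ j, χ (Additive.ofMul ⟨(h j)⁻¹ * T ^ w j * h j, H.mem j⟩) = 0 := by
  have h0 := (cocOf_isCoc χ).sum_eq_zero T
  rw [H.sum_eq (cocOf Γ χ T)] at h0
  rw [← h0]
  refine Finset.sum_congr rfl fun j _ => ?_
  rw [sum_cocOf_orbit χ T (w j) (h j • base Γ) (H.1 j).2.1]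
  have hs : (h j)⁻¹ * rep Γ (h j • base Γ) ∈ Γ := by
    rw [← smul_base_eq_smul_base_iff, rep_smul_base]
  have hconj : (rep Γ (h j • base Γ))⁻¹ * T ^ w j * rep Γ (h j • base Γ)
      = ((h j)⁻¹ * rep Γ (h j • base Γ))⁻¹ * ((h j)⁻¹ * T ^ w j * h j)
        * ((h j)⁻¹ * rep Γ (h j • base Γ)) := by
    simp only [mul_inv_rev, inv_inv, mul_assoc, mul_inv_cancel_left]
  rw [hconj, ext_conj χ hs (H.mem j), ext_of_mem χ (H.mem j)]

/-- The index type of a cusp system of a subgroup of finite index containing `-1` is finite. -/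
theorem IsCuspSystem.finite [Finite (Cos Γ)] (hneg : (-1 : SL(2, ℤ)) ∈ Γ) {J : Type*}
    {c : J → SL(2, ℤ)} (hc : IsCuspSystem Γ c) : Finite J := by
  obtain ⟨J₀, hJ₀, h, w, H⟩ := exists_isOrbitSection Γ
  obtain ⟨σ, -⟩ := (H.isCuspSystem hneg).exists_equiv hc
  exact Finite.of_equiv J₀ σ

/-- (BDY) for an arbitrary cusp system of a subgroup of finite index containing `-1`:
a homomorphism to a torsion-free group sums to zero over the cusp system. -/
theorem IsCuspSystem.sum_hom_eq_zero [Finite (Cos Γ)] (hneg : (-1 : SL(2, ℤ)) ∈ Γ)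
    {J : Type*} [Fintype J] {c : J → SL(2, ℤ)} (hc : IsCuspSystem Γ c) {A : Type*}
    [AddCommGroup A] [IsAddTorsionFree A] (χ : Additive Γ →+ A) :
    ∑ j, χ (Additive.ofMul ⟨c j, (hc.1 j).mem⟩) = 0 := by
  classical
  have hfin : Fintype (Cos Γ) := Fintype.ofFinite _
  obtain ⟨J₀, hJ₀, h, w, H⟩ := exists_isOrbitSection Γ
  have key := (H.isCuspSystem hneg).sum_eq_sum hc (fun g : Γ => χ (Additive.ofMul g)) ?_
  · rw [← key]
    exact H.sum_hom_eq_zero χ
  · intro g s _
    have : Additive.ofMul (s * g * s⁻¹) = Additive.ofMul s + Additive.ofMul g - Additive.ofMul s :=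
      rfl
    rw [this, map_sub, map_add]
    abel

end Fermat.Agent.S41.H62
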