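/-
S41 / U7-(i) (helper62): the exact count of `p`-torsion.

Over an algebraically closed field `K` and for a Weierstrass curve `W` with `Δ ≠ 0`:

* `exists_finset_torsion` : for every `n` with `(n : K) ≠ 0` there are `n ^ 2` distinct points
  killed by `n` (no primality, any characteristic not dividing `n`);
* `ncard_torsion_eq`, `natCard_torsionBy_eq` : for an odd prime `p` with `(p : K) ≠ 0` the
  `p`-torsion has exactly `p ^ 2` elements;
* `finrank_torsionBy_eq_two` : the corresponding statement for the `ZMod p`-dimension, for an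
  arbitrary `ZMod p`-module structure on the torsion submodule (in particular the one of the
  Prelude's `GaloisRep`).

Proof of the lower bound (generic fibre of multiplication by `n`): with `(U, V) = lad W n` the
landed ladder polynomials (`x(nQ) = U(x(Q)) / V(x(Q))`, `U` monic of degree `n²`, `V` of degree
`≤ n² - 1` with coefficient `n²` there, no common root), the Wronskian `U'V - UV'` has leading
coefficient `n² ≠ 0`; for `c` outside a finite set `U - cV` has `n²` distinct roots `x_i`, and the
points `P_i` above them satisfy `n • P_i = ± Q₀` for a fixed `Q₀` with `x(Q₀) = c`.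
-/
import Mathlib
import Fermat.Agent.S13.H61.Link
import Fermat.Agent.S52.H55.TorsionAnyChar

set_option autoImplicit false

namespace Fermat.Agent.S41.H62

open Polynomial WeierstrassCurve
open Fermat.Agent.S05 (xOf xOf_some xOf_neg xOf_eq_iff)
open Fermat.Agent.S13.H15 (lad DegLC lad_deg)
open Fermat.Agent.S13.H61 (lad_spec)

universe u

/-! ### A polynomial lemma: generic fibres of `U / V` are reduced -/

section Poly

variable {K : Type u} [Field K]

/-- The Wronskian `U' V - U V'` of `U` (monic of degree `m`) and `V` (degree `≤ m - 1`, coefficient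
`a` there) has coefficient `a` in degree `2 m - 2`. -/
lemma wronskian_coeff {U V : K[X]} {m : ℕ} (hm : 2 ≤ m) {a : K}
    (hU : U.natDegree ≤ m) (hU1 : U.coeff m = 1)
    (hV : V.natDegree ≤ m - 1) (hVa : V.coeff (m - 1) = a) :
    (derivative U * V - U * derivative V).coeff (m - 1 + (m - 1)) = a := by
  have h1 : (derivative U).natDegree ≤ m - 1 := (natDegree_derivative_le U).trans (by omega)
  have h2 : (derivative V).natDegree ≤ m - 2 := (natDegree_derivative_le V).trans (by omega)
  have e1 : (derivative U * V).coeff (m - 1 + (m - 1)) = (m : K) * a := by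
    rw [coeff_mul_add_eq_of_natDegree_le h1 hV, coeff_derivative, hVa]
    have : m - 1 + 1 = m := by omega
    rw [this, hU1]
    have : ((m - 1 : ℕ) : K) + 1 = (m : K) := by
      have : ((m - 1 : ℕ) : K) + 1 = ((m - 1 + 1 : ℕ) : K) := by push_cast; ring
      rw [this]; congr 1
    rw [this, one_mul]
  have e2 : (U * derivative V).coeff (m - 1 + (m - 1)) = a * ((m : K) - 1) := by
    have hidx : m - 1 + (m - 1) = m + (m - 2) := by omega
    rw [hidx, coeff_mul_add_eq_of_natDegree_le hU h2, coeff_derivative, hU1, one_mul]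
    have : m - 2 + 1 = m - 1 := by omega
    rw [this, hVa]
    have : ((m - 2 : ℕ) : K) + 1 = (m : K) - 1 := by
      have h : ((m - 2 : ℕ) : K) + 1 + 1 = (m : K) := by
        have : ((m - 2 : ℕ) : K) + 1 + 1 = ((m - 2 + 2 : ℕ) : K) := by push_cast; ring
        rw [this]; congr 1; omega
      linear_combination h
    rw [this]
  rw [coeff_sub, e1, e2]
  ring

/-- **Generic fibre.**  Let `U` be monic of degree `m ≥ 2` and `V` of degree `≤ m - 1` with nonzero
coefficient in degree `m - 1`, without common root.  Then for a suitable `c` the equation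
`U(x) = c V(x)` has `m` distinct solutions (none of them a root of `V`). -/
theorem exists_fibre [IsAlgClosed K] {U V : K[X]} {m : ℕ} (hm : 2 ≤ m) {a : K} (ha : a ≠ 0)
    (hU : U.natDegree ≤ m) (hU1 : U.coeff m = 1)
    (hV : V.natDegree ≤ m - 1) (hVa : V.coeff (m - 1) = a)
    (hUV : ∀ x : K, V.eval x = 0 → U.eval x ≠ 0) :
    ∃ (c : K) (s : Finset K), s.card = m ∧
      ∀ x ∈ s, U.eval x = c * V.eval x ∧ V.eval x ≠ 0 := by
  classical
  set Wr : K[X] := derivative U * V - U * derivative V with hWr
  have hWr0 : Wr ≠ 0 := by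
    intro h0
    have := wronskian_coeff hm hU hU1 hV hVa
    rw [← hWr, h0, coeff_zero] at this
    exact ha this.symm
  -- the finite set of bad values
  obtain ⟨c, hc⟩ := Infinite.exists_notMem_finset
    (Wr.roots.toFinset.image fun r => U.eval r / V.eval r)
  -- `U` is monic of degree `m`
  have hUne : U ≠ 0 := by
    intro h; rw [h, coeff_zero] at hU1; exact zero_ne_one hU1
  have hUdeg : U.natDegree = m :=
    le_antisymm hU (le_natDegree_of_ne_zero (by rw [hU1]; exact one_ne_zero))
  have hUmonic : U.Monic := by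
    rw [Monic, leadingCoeff, hUdeg, hU1]
  set F : K[X] := U - C c * V with hF
  have hcV : (C c * V).natDegree < U.natDegree := by
    rw [hUdeg]
    calc (C c * V).natDegree ≤ V.natDegree := natDegree_C_mul_le c V
      _ ≤ m - 1 := hV
      _ < m := by omega
  have hFdeg : F.natDegree = m := by
    rw [hF, natDegree_sub_eq_left_of_natDegree_lt hcV, hUdeg]
  have hFmonic : F.Monic := hUmonic.sub_of_left (degree_lt_degree hcV)
  have hFne : F ≠ 0 := hFmonic.ne_zero
  have hroot : ∀ x : K, F.eval x = 0 → U.eval x = c * V.eval x ∧ V.eval x ≠ 0 := by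
    intro x hx
    have h1 : U.eval x = c * V.eval x := by
      have : F.eval x = U.eval x - c * V.eval x := by simp [hF]
      rw [this] at hx
      linear_combination hx
    refine ⟨h1, fun hV0 => hUV x hV0 ?_⟩
    rw [h1, hV0, mul_zero]
  -- `F` is separable
  have hsep : F.Separable := by
    rw [separable_def, isCoprime_iff_aeval_ne_zero_of_isAlgClosed K K F (derivative F)]
    intro x
    by_contra hcon
    rw [not_or, not_not, not_not] at hcon
    obtain ⟨hx, hx'⟩ := hcon
    rw [coe_aeval_eq_eval] at hx hx'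
    obtain ⟨h1, hV0⟩ := hroot x hx
    have h2 : (derivative U).eval x = c * (derivative V).eval x := by
      have : (derivative F).eval x = (derivative U).eval x - c * (derivative V).eval x := by
        simp [hF]
      rw [this] at hx'
      linear_combination hx'
    have hWx : Wr.eval x = 0 := by
      simp only [hWr, eval_sub, eval_mul]
      rw [h1, h2]; ring
    apply hc
    rw [Finset.mem_image]
    refine ⟨x, ?_, ?_⟩
    · rw [Multiset.mem_toFinset, mem_roots hWr0]; exact hWx
    · rw [h1, mul_div_assoc, div_self hV0, mul_one]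
  refine ⟨c, F.roots.toFinset, ?_, ?_⟩
  · rw [Multiset.toFinset_card_of_nodup (nodup_roots hsep),
      ← (IsAlgClosed.splits F).natDegree_eq_card_roots, hFdeg]
  · intro x hx
    rw [Multiset.mem_toFinset, mem_roots hFne] at hx
    exact hroot x hx

end Poly

/-! ### The torsion count -/

section Torsion

variable {K : Type u} [Field K] [DecidableEq K]

/-- **Lower bound.**  Over an algebraically closed field, a Weierstrass curve with `Δ ≠ 0` has
`n ^ 2` distinct points killed by `n`, for every `n` that is nonzero in the field. -/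
theorem exists_finset_torsion [IsAlgClosed K] (W : Affine K) (hΔ : W.Δ ≠ 0) (n : ℕ)
    (hn : (n : K) ≠ 0) :
    ∃ s : Finset W.Point, s.card = n ^ 2 ∧ ∀ P ∈ s, n • P = 0 := by
  classical
  have hn0 : n ≠ 0 := fun h => hn (by rw [h, Nat.cast_zero])
  rcases Nat.lt_or_ge n 2 with h2 | h2
  · have h1 : n = 1 := by omega
    subst h1
    exact ⟨{0}, by simp, by simp⟩
  have hm : 2 ≤ n ^ 2 := by nlinarith
  obtain ⟨⟨hU, hU1⟩, hV, hVa⟩ := lad_deg (W : WeierstrassCurve K) n
  have hspec : ∀ {Q : W.Point}, Q ≠ 0 →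
      (n • Q = 0 → (lad W n).2.eval (xOf Q) = 0 ∧ (lad W n).1.eval (xOf Q) ≠ 0) ∧
      (n • Q ≠ 0 → (lad W n).2.eval (xOf Q) ≠ 0 ∧
        xOf (n • Q) * (lad W n).2.eval (xOf Q) = (lad W n).1.eval (xOf Q)) :=
    fun {Q} hQ => lad_spec W hQ n
  have hpt : ∀ x : K, ∃ P : W.Point, P ≠ 0 ∧ xOf P = x := by
    intro x
    obtain ⟨y, hy⟩ := Fermat.Agent.S13.H56.exists_nonsingular_of_isAlgClosed W hΔ x
    exact ⟨Affine.Point.some x y hy, Affine.Point.some_ne_zero hy, rfl⟩
  have hUV : ∀ x : K, (lad W n).2.eval x = 0 → (lad W n).1.eval x ≠ 0 := by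
    intro x hx
    obtain ⟨P, hP0, rfl⟩ := hpt x
    by_cases hnP : n • P = 0
    · exact ((hspec hP0).1 hnP).2
    · exact absurd hx ((hspec hP0).2 hnP).1
  obtain ⟨c, s₀, hcard, hs₀⟩ := exists_fibre hm (pow_ne_zero 2 hn) hU hU1 hV hVa hUV
  obtain ⟨Q₀, hQ₀, hxQ₀⟩ := hpt c
  -- above every root there is a point with `n • P = Q₀`
  have key : ∀ x, x ∈ s₀ → ∃ P : W.Point, xOf P = x ∧ n • P = Q₀ := by
    intro x hx
    obtain ⟨h1, hV0⟩ := hs₀ x hx
    obtain ⟨P, hP0, rfl⟩ := hpt x
    have hnP : n • P ≠ 0 := fun h => hV0 ((hspec hP0).1 h).1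
    have hxn : xOf (n • P) = xOf Q₀ := by
      have h3 := ((hspec hP0).2 hnP).2
      rw [h1] at h3
      rw [hxQ₀]
      exact mul_right_cancel₀ hV0 h3
    rcases (xOf_eq_iff hnP hQ₀).1 hxn with h | h
    · exact ⟨P, rfl, h⟩
    · exact ⟨-P, xOf_neg P, by rw [smul_neg, h, neg_neg]⟩
  choose! f hf using key
  have hinj : Set.InjOn f s₀ := by
    intro x hx x' hx' h
    rw [← (hf x hx).1, ← (hf x' hx').1, h]
  have hne : s₀.Nonempty := by
    rw [← Finset.card_pos, hcard]; positivity
  obtain ⟨x₁, hx₁⟩ := hne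
  refine ⟨s₀.image fun x => f x - f x₁, ?_, ?_⟩
  · rw [Finset.card_image_of_injOn, hcard]
    intro x hx x' hx' h
    exact hinj hx hx' (sub_left_injective h)
  · intro P hP
    rw [Finset.mem_image] at hP
    obtain ⟨x, hx, rfl⟩ := hP
    rw [smul_sub, (hf x hx).2, (hf x₁ hx₁).2, sub_self]

/-- **Exact count (set form).**  For an odd prime `p` that is nonzero in the algebraically closed
field `K`, the points killed by `p` form a finite set with exactly `p ^ 2` elements. -/
theorem ncard_torsion_eq [IsAlgClosed K] (W : Affine K) (hΔ : W.Δ ≠ 0) {p : ℕ} (hp : p.Prime)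
    (hp2 : p ≠ 2) (hpK : (p : K) ≠ 0) :
    Set.Finite {P : W.Point | p • P = 0} ∧ Set.ncard {P : W.Point | p • P = 0} = p ^ 2 := by
  obtain ⟨hfin, hle⟩ := Fermat.Agent.S52.H55.card_torsion_le_of_cast_ne_zero W hp hp2 hpK
  refine ⟨hfin, le_antisymm hle ?_⟩
  obtain ⟨s, hs, hsP⟩ := exists_finset_torsion W hΔ p hpK
  have hsub : (s : Set W.Point) ⊆ {P : W.Point | p • P = 0} := fun P hP => hsP P hP
  calc p ^ 2 = (s : Set W.Point).ncard := by rw [Set.ncard_coe_finset, hs]
    _ ≤ Set.ncard {P : W.Point | p • P = 0} := Set.ncard_le_ncard hsub hfin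

/-- **Exact count (submodule form).** -/
theorem natCard_torsionBy_eq [IsAlgClosed K] (W : Affine K) (hΔ : W.Δ ≠ 0) {p : ℕ}
    (hp : p.Prime) (hp2 : p ≠ 2) (hpK : (p : K) ≠ 0) :
    Finite (Submodule.torsionBy ℤ W.Point p) ∧
      Nat.card (Submodule.torsionBy ℤ W.Point p) = p ^ 2 := by
  obtain ⟨hfin, hcard⟩ := ncard_torsion_eq W hΔ hp hp2 hpK
  rw [← Fermat.Agent.S13.H56.torsionBy_eq_setOf] at hfin hcard
  exact ⟨hfin, by rw [← Nat.card_coe_set_eq] at hcard; exact hcard⟩

/-- The `p`-torsion is two-dimensional over `ZMod p`, for any `ZMod p`-module structure on the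
torsion submodule (e.g. the one of the Prelude's `GaloisRep`). -/
theorem finrank_torsionBy_eq_two [IsAlgClosed K] (W : Affine K) (hΔ : W.Δ ≠ 0) {p : ℕ}
    [Fact p.Prime] (hp2 : p ≠ 2) (hpK : (p : K) ≠ 0)
    [Module (ZMod p) (Submodule.torsionBy ℤ W.Point p)] :
    Module.finrank (ZMod p) (Submodule.torsionBy ℤ W.Point p) = 2 := by
  obtain ⟨hfin, hcard⟩ := natCard_torsionBy_eq W hΔ (Fact.out : p.Prime) hp2 hpK
  have : Module.Finite (ZMod p) (Submodule.torsionBy ℤ W.Point p) := Module.Finite.of_finite
  rw [Module.natCard_eq_pow_finrank (K := ZMod p), Nat.card_zmod] at hcard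
  exact Nat.pow_right_injective (Fact.out : p.Prime).two_le hcard

end Torsion

end Fermat.Agent.S41.H62
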