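/-
S41 / U7-CARD (helper62): the leaf `natCard_torsionBy_eq` of helper2's U7 skeleton
(origin/helper2 `Fermat/Agent/S41/H2/U7Skel.lean`), VERBATIM statement, from
`Fermat.Agent.S41.H62.natCard_torsionBy_eq` (`TorsionCount.lean`).
-/
import Fermat.Agent.S41.H62.TorsionCount

set_option autoImplicit false

namespace Fermat.Agent.S41.H62

/-- **(CARD)** Over an algebraically closed field in which `p ≠ 0`, an elliptic curve has exactly
`p ^ 2` points of `p`-torsion (statement of the U7 skeleton, verbatim). -/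
theorem card_leaf {K : Type*} [Field K] [DecidableEq K] [IsAlgClosed K]
    (W : WeierstrassCurve.Affine K) (hΔ : W.Δ ≠ 0) {p : ℕ} (hp : p.Prime) (hp2 : p ≠ 2)
    (hpK : (p : K) ≠ 0) : Nat.card (Submodule.torsionBy ℤ W.Point p) = p ^ 2 :=
  (natCard_torsionBy_eq W hΔ hp hp2 hpK).2

/-- Finiteness of the `p`-torsion (same hypotheses, without `Δ ≠ 0` and algebraic closedness). -/
theorem finite_torsionBy {K : Type*} [Field K] [DecidableEq K]
    (W : WeierstrassCurve.Affine K) {p : ℕ} (hp : p.Prime) (hp2 : p ≠ 2)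
    (hpK : (p : K) ≠ 0) : Finite (Submodule.torsionBy ℤ W.Point p) :=
  (Fermat.Agent.S52.H55.natCard_torsionBy_le_of_cast_ne_zero W hp hp2 hpK).1

end Fermat.Agent.S41.H62
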