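/-
S41, PAIR sub-leaf (P5) "cusp systems", part 5 (helper62): the two conversions (C1), (C2) between
cusp systems and the abstract "parabolic bases" of helper99's kappa-calculus, in unfolded form
(field by field), for a subgroup `Γ ≤ SL(2, ℤ)`:

`P = {γ : Γ | IsPosPar γ}`, `Z = {z : Γ | z = 1 ∨ z = -1}`.

* `IsPosPar.conj`: positive parabolics are stable under conjugation;
* `IsCuspSystem.toSubgroup`: a cusp system as a family of elements of `Γ`;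
* (C1) `IsCuspSystem.basis_mem`, `IsCuspSystem.basis_ex`, `IsCuspSystem.basis_uniq`;
* (C2) `isCuspSystem_of_basis`.
-/
import Mathlib
import Fermat.Agent.S41.H62.CuspSystem

set_option autoImplicit false

open scoped MatrixGroups
open ModularGroup

namespace Fermat.Agent.S41.H62

/-- Positive parabolic elements are stable under conjugation in `SL(2, ℤ)`. -/
theorem IsPosPar.conj {g : SL(2, ℤ)} (hg : IsPosPar g) (s : SL(2, ℤ)) :
    IsPosPar (s * g * s⁻¹) := by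
  obtain ⟨h, m, hm, rfl⟩ := hg
  exact ⟨h * s⁻¹, m, hm, (conj_mul_inv h s _).symm⟩

variable {Γ : Subgroup SL(2, ℤ)} {J : Type*}

/-- A cusp system, as a family of elements of the subgroup. -/
def IsCuspSystem.toSubgroup {c : J → SL(2, ℤ)} (hc : IsCuspSystem Γ c) (j : J) : Γ :=
  ⟨c j, (hc.1 j).mem⟩

@[simp] theorem IsCuspSystem.coe_toSubgroup {c : J → SL(2, ℤ)} (hc : IsCuspSystem Γ c) (j : J) :
    (hc.toSubgroup j : SL(2, ℤ)) = c j := rfl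

/-- (C1), field `mem`. -/
theorem IsCuspSystem.basis_mem {c : J → SL(2, ℤ)} (hc : IsCuspSystem Γ c) (j : J) :
    hc.toSubgroup j ∈ ({γ : Γ | IsPosPar (γ : SL(2, ℤ))} : Set Γ) :=
  (hc.1 j).isPosPar

/-- (C1), field `ex`: every positive parabolic element of `Γ` is `Γ`-conjugate to a positive
power of a member of the cusp system. -/
theorem IsCuspSystem.basis_ex {c : J → SL(2, ℤ)} (hc : IsCuspSystem Γ c) :
    ∀ x ∈ ({γ : Γ | IsPosPar (γ : SL(2, ℤ))} : Set Γ),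
      ∃ (j : J) (g : Γ) (n : ℕ), 0 < n ∧ x = g * hc.toSubgroup j ^ n * g⁻¹ := by
  intro x hx
  obtain ⟨c', n, hc', hn, hxc⟩ := exists_isPPP_pow x.2 hx
  obtain ⟨j, ⟨s, hs, hj⟩, -⟩ := hc.2 c' hc'
  refine ⟨j, ⟨s, hs⟩, n, hn, Subtype.ext ?_⟩
  show (x : SL(2, ℤ)) = s * c j ^ n * s⁻¹
  rw [hxc, hj, conj_pow]

/-- (C1), field `uniq` (needs `-1 ∈ Γ`). -/
theorem IsCuspSystem.basis_uniq (hneg : (-1 : SL(2, ℤ)) ∈ Γ) {c : J → SL(2, ℤ)}
    (hc : IsCuspSystem Γ c) :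
    ∀ (j j' : J) (g : Γ) (n n' : ℕ), 0 < n → 0 < n' →
      g * hc.toSubgroup j ^ n * g⁻¹ = hc.toSubgroup j' ^ n' →
      j = j' ∧ n = n' ∧
        ∃ z ∈ ({z : Γ | (z : SL(2, ℤ)) = 1 ∨ (z : SL(2, ℤ)) = -1} : Set Γ),
          ∃ m : ℤ, g = z * hc.toSubgroup j ^ m := by
  intro j j' g n n' hn hn' H
  have H' : ((g : SL(2, ℤ)) * c j * (g : SL(2, ℤ))⁻¹) ^ n = c j' ^ n' := by
    rw [conj_pow]
    exact congrArg Subtype.val H
  obtain ⟨hcc, hnn⟩ := isPPP_pow_unique ((hc.1 j).conj g.2) (hc.1 j') hn' H'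
  obtain ⟨j₁, -, huniq⟩ := hc.2 (c j') (hc.1 j')
  have hj1 : j' = j₁ := huniq j' ⟨1, Γ.one_mem, by simp⟩
  have hj2 : j = j₁ := huniq j ⟨g, g.2, hcc.symm⟩
  have hjj : j = j' := by rw [hj1, hj2]
  refine ⟨hjj, hnn, ?_⟩
  rw [← hjj] at hcc
  obtain ⟨k, hk⟩ := (hc.1 j).centralizer hneg g.2 hcc
  rcases hk with hk | hk
  · refine ⟨1, Or.inl rfl, k, Subtype.ext ?_⟩
    rw [one_mul]
    show (g : SL(2, ℤ)) = ((hc.toSubgroup j ^ k : Γ) : SL(2, ℤ))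
    rw [Subgroup.coe_zpow]
    exact hk
  · refine ⟨⟨-1, hneg⟩, Or.inr rfl, k, Subtype.ext ?_⟩
    show (g : SL(2, ℤ)) = (-1 : SL(2, ℤ)) * ((hc.toSubgroup j ^ k : Γ) : SL(2, ℤ))
    rw [Subgroup.coe_zpow, neg_one_mul]
    exact hk

/-- (C2): a family of positive parabolic elements of `Γ` with the existence and uniqueness
properties of a parabolic basis is a cusp system. -/
theorem isCuspSystem_of_basis (γ : J → Γ)
    (hmem : ∀ j, γ j ∈ ({γ : Γ | IsPosPar (γ : SL(2, ℤ))} : Set Γ))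
    (hex : ∀ x ∈ ({γ : Γ | IsPosPar (γ : SL(2, ℤ))} : Set Γ),
      ∃ (j : J) (g : Γ) (n : ℕ), 0 < n ∧ x = g * γ j ^ n * g⁻¹)
    (huniq : ∀ (j j' : J) (g : Γ) (n n' : ℕ), 0 < n → 0 < n' →
      g * γ j ^ n * g⁻¹ = γ j' ^ n' → j = j' ∧ n = n') :
    IsCuspSystem Γ (fun j => (γ j : SL(2, ℤ))) := by
  have hPPP : ∀ j, IsPPP Γ (γ j : SL(2, ℤ)) := by
    intro j
    obtain ⟨c, e, hc, he, hce⟩ := exists_isPPP_pow (γ j).2 (hmem j)
    obtain ⟨j', g, n, hn, hx⟩ := hex ⟨c, hc.mem⟩ hc.isPosPar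
    have h1 : g * γ j' ^ (n * e) * g⁻¹ = γ j ^ 1 := by
      apply Subtype.ext
      have hx' : c = (g : SL(2, ℤ)) * (γ j' : SL(2, ℤ)) ^ n * (g : SL(2, ℤ))⁻¹ :=
        congrArg Subtype.val hx
      show (g : SL(2, ℤ)) * (γ j' : SL(2, ℤ)) ^ (n * e) * (g : SL(2, ℤ))⁻¹
        = (γ j : SL(2, ℤ)) ^ 1
      rw [pow_one, hce, hx', pow_mul, conj_pow]
    obtain ⟨-, hne⟩ := huniq j' j g (n * e) 1 (Nat.mul_pos hn he) one_pos h1
    have he1 : e = 1 := Nat.eq_one_of_mul_eq_one_left hne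
    rw [hce, he1, pow_one]
    exact hc
  refine ⟨hPPP, ?_⟩
  intro g hg
  obtain ⟨j, s, n, hn, hx⟩ := hex ⟨g, hg.mem⟩ hg.isPosPar
  have hx' : g = (s : SL(2, ℤ)) * (γ j : SL(2, ℤ)) ^ n * (s : SL(2, ℤ))⁻¹ :=
    congrArg Subtype.val hx
  have h1 : g ^ 1 = ((s : SL(2, ℤ)) * (γ j : SL(2, ℤ)) * (s : SL(2, ℤ))⁻¹) ^ n := by
    rw [pow_one, conj_pow]
    exact hx'
  obtain ⟨hgs, -⟩ := isPPP_pow_unique hg ((hPPP j).conj s.2) hn h1
  refine ⟨j, ⟨s, s.2, hgs⟩, ?_⟩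
  rintro j' ⟨s', hs', hj'⟩
  have h2 : (⟨s', hs'⟩⁻¹ * s : Γ) * γ j ^ 1 * (⟨s', hs'⟩⁻¹ * s : Γ)⁻¹ = γ j' ^ 1 := by
    apply Subtype.ext
    show (s'⁻¹ * (s : SL(2, ℤ))) * (γ j : SL(2, ℤ)) ^ 1 * (s'⁻¹ * (s : SL(2, ℤ)))⁻¹
      = (γ j' : SL(2, ℤ)) ^ 1
    rw [pow_one, pow_one]
    have h3 : (γ j' : SL(2, ℤ)) = s'⁻¹ * g * s' := by
      rw [hj']
      simp only [mul_assoc, inv_mul_cancel_left, inv_mul_cancel, mul_one]
    rw [h3, hgs]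
    simp only [mul_inv_rev, inv_inv, mul_assoc]
  exact ((huniq j j' _ 1 1 one_pos one_pos h2).1).symm

end Fermat.Agent.S41.H62
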