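/-
S41, PAIR (S3) = (INTR) (helper62): the INTRINSIC description of helper33's integral pairing
`S41.H33.pairZ` over an arbitrary cusp system, in the vocabulary of helper99's kappa-calculus.

For `Γ ≤ SL(2, ℤ)` of finite index with `-1 ∈ Γ`, parabolic `φ, ψ : Γ → ℤ`, ANY primitive `κ` of
the cup product (`κ (g h) = κ g + κ h + φ g * ψ h`) and ANY cusp system `γ` of `Γ`:

  `pairZ Γ φ ψ = pairOf κ γ = - ∑ j, κ (γ j)`.

* `pairZ_eq_pairOf`: for a family `γ : J → Γ` which is a cusp system;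
* `pairZ_eq_pairOf_toSubgroup`: for `hc.toSubgroup`;
* `pairZ_eq_pairOf_of_isParBasis`: for a parabolic basis (helper99's `IsParBasis`) of the positive
  parabolic elements of `Γ`;
* `exists_isKappa`: existence of a primitive in the order `IsKappa φ ψ`;
* `exists_cuspSystem`: existence of a cusp system with a finite index type.
-/
import Mathlib
import Fermat.Agent.S41.H33.Pairing
import Fermat.Agent.S41.H62.CuspOrbit
import Fermat.Agent.S41.H62.CuspParBasis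

set_option autoImplicit false

open scoped MatrixGroups
open ModularGroup ModularCurve.Period
open Fermat.Agent.S16.H97

namespace Fermat.Agent.S41.H62

variable {Γ : Subgroup SL(2, ℤ)}

/-- A parabolic homomorphism vanishes on positive parabolic elements. -/
theorem IsPosPar.hom_eq_zero {A : Type*} [AddCommGroup A] {φ : Additive Γ →+ A}
    (hφ : IsParabolicHom Γ φ) {g : Γ} (hg : IsPosPar (g : SL(2, ℤ))) :
    φ (Additive.ofMul g) = 0 := by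
  apply hφ
  rw [((isPosPar_iff _).mp hg).1]
  norm_num

/-- Existence of a cusp system with a finite index type (finite index, `-1 ∈ Γ`). -/
theorem exists_cuspSystem (Γ : Subgroup SL(2, ℤ)) [Finite (Cos Γ)] (hneg : (-1 : SL(2, ℤ)) ∈ Γ) :
    ∃ (J : Type) (_ : Fintype J) (c : J → SL(2, ℤ)), IsCuspSystem Γ c := by
  obtain ⟨J, hJ, h, w, H⟩ := exists_isOrbitSection Γ
  exact ⟨J, hJ, _, H.isCuspSystem hneg⟩

/-- Existence of a primitive of `φ ∪ ψ` for parabolic `φ, ψ : Γ → ℤ`. -/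
theorem exists_isKappa [Fintype (Cos Γ)] (hneg : (-1 : SL(2, ℤ)) ∈ Γ) {φ ψ : Additive Γ →+ ℤ}
    (hφ : IsParabolicHom Γ φ) (hψ : IsParabolicHom Γ ψ) :
    ∃ κ : Γ → ℤ, Fermat.Agent.S41.H99.IsKappa (fun g : Γ => φ (Additive.ofMul g))
      (fun g : Γ => ψ (Additive.ofMul g)) κ := by
  obtain ⟨κ, hκ⟩ := Fermat.Agent.S41.H33.exists_kappa hneg hψ hφ
  exact ⟨κ, hκ⟩

/-- **(INTR)** The integral pairing is `- ∑ j, κ (γ j)` for any primitive `κ` of `φ ∪ ψ` and any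
cusp system `γ`. -/
theorem pairZ_eq_pairOf [Fintype (Cos Γ)] (hneg : (-1 : SL(2, ℤ)) ∈ Γ) {φ ψ : Additive Γ →+ ℤ}
    (hφ : IsParabolicHom Γ φ) (hψ : IsParabolicHom Γ ψ) {κ : Γ → ℤ}
    (hκ : Fermat.Agent.S41.H99.IsKappa (fun g : Γ => φ (Additive.ofMul g))
      (fun g : Γ => ψ (Additive.ofMul g)) κ)
    {J : Type*} [Fintype J] {γ : J → Γ} (hγ : IsCuspSystem Γ (fun j => (γ j : SL(2, ℤ)))) :
    Fermat.Agent.S41.H33.pairZ Γ φ ψ = Fermat.Agent.S41.H99.pairOf κ γ := by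
  classical
  have hfφ : Fermat.Agent.S41.H99.IsAddFn (fun g : Γ => φ (Additive.ofMul g)) :=
    Fermat.Agent.S41.H99.IsAddFn.of_addMonoidHom φ
  have hfψ : Fermat.Agent.S41.H99.IsAddFn (fun g : Γ => ψ (Additive.ofMul g)) :=
    Fermat.Agent.S41.H99.IsAddFn.of_addMonoidHom ψ
  obtain ⟨P, hP⟩ := Fermat.Agent.S41.H33.exists_isTNorm φ hφ
  obtain ⟨Q, hQ⟩ := Fermat.Agent.S41.H33.exists_isUPot ψ
  rw [Fermat.Agent.S41.H33.pairZ_eq_dot hneg hφ hψ hP hQ]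
  obtain ⟨c₁, h₁, hT, rfl, rfl⟩ := hP
  obtain ⟨c₂, h₂, hU, hQ', rfl⟩ := hQ
  obtain ⟨κ₀, ζT, hκ₀, hsum, heval⟩ :=
    Fermat.Agent.S41.H33.exists_kappa0 hneg h₁ h₂ hT hφ hU Q hQ' hψ
  have hκ₀' : Fermat.Agent.S41.H99.IsKappa
      (fun g : Γ => homOfCoc c₂ h₂ (Additive.ofMul g))
      (fun g : Γ => homOfCoc c₁ h₁ (Additive.ofMul g)) κ₀ := hκ₀
  have hκ' := hκ₀'.swap hfψ hfφ
  have hχ := hκ.sub_isAddFn hκ'
  -- the orbit cusp system
  obtain ⟨J₀, hJ₀, h, w, H⟩ := exists_isOrbitSection Γ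
  have hc₀ := H.isCuspSystem hneg
  have hbdy := H.sum_hom_eq_zero hχ.toAddMonoidHom
  have hκ₀sum := H.sum_kappa_eq κ₀ ζT heval
  have hpos : ∀ j, IsPosPar (((⟨(h j)⁻¹ * T ^ w j * h j, H.mem j⟩ : Γ)) : SL(2, ℤ)) :=
    fun j => (hc₀.1 j).isPosPar
  -- the sum over the orbit cusp system
  have horb : ∑ j, κ ⟨(h j)⁻¹ * T ^ w j * h j, H.mem j⟩ = - ∑ x, c₁ S x * Q x := by
    rw [← hsum, ← hκ₀sum, ← Finset.sum_neg_distrib]
    have e : ∀ j, κ ⟨(h j)⁻¹ * T ^ w j * h j, H.mem j⟩ =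
        - κ₀ ⟨(h j)⁻¹ * T ^ w j * h j, H.mem j⟩ +
        hχ.toAddMonoidHom (Additive.ofMul ⟨(h j)⁻¹ * T ^ w j * h j, H.mem j⟩) := by
      intro j
      rw [Fermat.Agent.S41.H99.IsAddFn.toAddMonoidHom_apply]
      have h0 : homOfCoc c₁ h₁ (Additive.ofMul (⟨(h j)⁻¹ * T ^ w j * h j, H.mem j⟩ : Γ)) = 0 :=
        IsPosPar.hom_eq_zero hφ (hpos j)
      show _ = _ + (κ _ - (homOfCoc c₂ h₂ _ * homOfCoc c₁ h₁ _ - κ₀ _))
      rw [h0]
      ring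
    rw [Finset.sum_congr rfl fun j _ => e j, Finset.sum_add_distrib, hbdy, add_zero]
  -- transport to the given cusp system
  have htrans := hc₀.sum_eq_sum hγ κ (fun g s hg =>
    hκ.conj hfφ hfψ s (IsPosPar.hom_eq_zero hφ hg.isPosPar) (IsPosPar.hom_eq_zero hψ hg.isPosPar))
  rw [Fermat.Agent.S41.H99.pairOf]
  have e2 : ∑ j, κ (γ j) = ∑ j, κ ⟨(γ j : SL(2, ℤ)), (hγ.1 j).mem⟩ := rfl
  rw [e2, ← htrans, horb, neg_neg]

/-- (INTR) for a cusp system given as a family in `SL(2, ℤ)`. -/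
theorem pairZ_eq_pairOf_toSubgroup [Fintype (Cos Γ)] (hneg : (-1 : SL(2, ℤ)) ∈ Γ)
    {φ ψ : Additive Γ →+ ℤ} (hφ : IsParabolicHom Γ φ) (hψ : IsParabolicHom Γ ψ) {κ : Γ → ℤ}
    (hκ : Fermat.Agent.S41.H99.IsKappa (fun g : Γ => φ (Additive.ofMul g))
      (fun g : Γ => ψ (Additive.ofMul g)) κ)
    {J : Type*} [Fintype J] {c : J → SL(2, ℤ)} (hc : IsCuspSystem Γ c) :
    Fermat.Agent.S41.H33.pairZ Γ φ ψ = Fermat.Agent.S41.H99.pairOf κ hc.toSubgroup :=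
  pairZ_eq_pairOf hneg hφ hψ hκ (γ := hc.toSubgroup) hc

/-- (INTR) for a parabolic basis of the positive parabolic elements of `Γ`. -/
theorem pairZ_eq_pairOf_of_isParBasis [Fintype (Cos Γ)] (hneg : (-1 : SL(2, ℤ)) ∈ Γ)
    {φ ψ : Additive Γ →+ ℤ} (hφ : IsParabolicHom Γ φ) (hψ : IsParabolicHom Γ ψ) {κ : Γ → ℤ}
    (hκ : Fermat.Agent.S41.H99.IsKappa (fun g : Γ => φ (Additive.ofMul g))
      (fun g : Γ => ψ (Additive.ofMul g)) κ)
    {J : Type*} [Fintype J] {Z : Set Γ} {γ : J → Γ}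
    (hγ : Fermat.Agent.S41.H99.IsParBasis ({γ : Γ | IsPosPar (γ : SL(2, ℤ))} : Set Γ) Z γ) :
    Fermat.Agent.S41.H33.pairZ Γ φ ψ = Fermat.Agent.S41.H99.pairOf κ γ :=
  pairZ_eq_pairOf hneg hφ hψ hκ (isCuspSystem_of_isParBasis hγ)

end Fermat.Agent.S41.H62
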