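/-
S41, PAIR sub-leaf (P5) "cusp systems", part 6 (helper62): cusp systems of `Γ ≤ SL(2, ℤ)` are
exactly the parabolic bases (helper99's `S41.H99.IsParBasis`) of the set of positive parabolic
elements of `Γ`.

* `isParSet_posPar`: `{γ : Γ | IsPosPar γ}` is an `IsParSet`;
* (C1) `IsCuspSystem.isParBasis`;  (C2) `isCuspSystem_of_isParBasis`;
* `pmOne_central`, `pmOne_mem_range`: the hypotheses `hZc`, `hZr` of `IsParBasis.induced`;
* `mem_posPar_iff_of_intertwine`: the hypothesis `hθ` of `pairOf_comp_mulEquiv` (CONJ) for an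
  isomorphism induced by an integer matrix of positive determinant.
-/
import Mathlib
import Fermat.Agent.S41.H62.CuspBasis
import Fermat.Agent.S41.H99.ParBasis

set_option autoImplicit false

open scoped MatrixGroups
open ModularGroup

namespace Fermat.Agent.S41.H62

variable {Γ : Subgroup SL(2, ℤ)} {J : Type*}

/-- The positive parabolic elements of `Γ` are stable under conjugation and positive powers. -/
theorem isParSet_posPar (Γ : Subgroup SL(2, ℤ)) :
    Fermat.Agent.S41.H99.IsParSet ({γ : Γ | IsPosPar (γ : SL(2, ℤ))} : Set Γ) :=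
  ⟨fun g _ hx => IsPosPar.conj hx (g : SL(2, ℤ)), fun _ hx _ hn => IsPosPar.pow hx hn⟩

/-- (C1) A cusp system of `Γ ∋ -1` is a parabolic basis of the positive parabolic elements. -/
theorem IsCuspSystem.isParBasis (hneg : (-1 : SL(2, ℤ)) ∈ Γ) {c : J → SL(2, ℤ)}
    (hc : IsCuspSystem Γ c) :
    Fermat.Agent.S41.H99.IsParBasis ({γ : Γ | IsPosPar (γ : SL(2, ℤ))} : Set Γ)
      ({z : Γ | (z : SL(2, ℤ)) = 1 ∨ (z : SL(2, ℤ)) = -1} : Set Γ) hc.toSubgroup :=
  ⟨hc.basis_mem, hc.basis_ex, hc.basis_uniq hneg⟩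

/-- (C2) A parabolic basis of the positive parabolic elements of `Γ` is a cusp system. -/
theorem isCuspSystem_of_isParBasis {Z : Set Γ} {γ : J → Γ}
    (h : Fermat.Agent.S41.H99.IsParBasis ({γ : Γ | IsPosPar (γ : SL(2, ℤ))} : Set Γ) Z γ) :
    IsCuspSystem Γ (fun j => (γ j : SL(2, ℤ))) :=
  isCuspSystem_of_basis γ h.mem h.ex
    (fun j j' g n n' hn hn' H => ⟨(h.uniq j j' g n n' hn hn' H).1, (h.uniq j j' g n n' hn hn' H).2.1⟩)

/-- `± 1` is central in `Γ`. -/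
theorem pmOne_central :
    ∀ z ∈ ({z : Γ | (z : SL(2, ℤ)) = 1 ∨ (z : SL(2, ℤ)) = -1} : Set Γ), ∀ g : Γ, z * g = g * z := by
  rintro z (hz | hz) g
  · have : z = 1 := Subtype.ext hz
    rw [this, one_mul, mul_one]
  · apply Subtype.ext
    show (z : SL(2, ℤ)) * (g : SL(2, ℤ)) = (g : SL(2, ℤ)) * (z : SL(2, ℤ))
    rw [hz, neg_one_mul, mul_neg_one]

/-- `± 1 ∈ Γ` lies in every subgroup `H ≤ Γ` containing `-1` (as the range of the inclusion). -/
theorem pmOne_mem_range {H : Subgroup SL(2, ℤ)} (hH : H ≤ Γ) (hneg : (-1 : SL(2, ℤ)) ∈ H) :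
    ∀ z ∈ ({z : Γ | (z : SL(2, ℤ)) = 1 ∨ (z : SL(2, ℤ)) = -1} : Set Γ),
      ∃ h : H, Subgroup.inclusion hH h = z := by
  rintro z (hz | hz)
  · exact ⟨1, Subtype.ext (by simp [hz])⟩
  · exact ⟨⟨-1, hneg⟩, Subtype.ext (by simp [hz])⟩

/-- An isomorphism induced by an integer matrix of positive determinant matches the sets of
positive parabolic elements. -/
theorem mem_posPar_iff_of_intertwine {Γ₁ Γ₂ : Subgroup SL(2, ℤ)} (θ : Γ₁ ≃* Γ₂)
    {D : Matrix (Fin 2) (Fin 2) ℤ} (hD : 0 < D.det)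
    (H : ∀ γ : Γ₁, D * ((γ : SL(2, ℤ)) : Matrix (Fin 2) (Fin 2) ℤ)
      = ((θ γ : SL(2, ℤ)) : Matrix (Fin 2) (Fin 2) ℤ) * D) :
    ∀ x : Γ₁, x ∈ ({γ : Γ₁ | IsPosPar (γ : SL(2, ℤ))} : Set Γ₁) ↔
      θ x ∈ ({γ : Γ₂ | IsPosPar (γ : SL(2, ℤ))} : Set Γ₂) :=
  fun x => isPosPar_iff_of_intertwine hD (H x)

/-- The preimage of the positive parabolic elements of `Γ` under the inclusion of `H ≤ Γ` is the
set of positive parabolic elements of `H`. -/
theorem preimage_posPar_inclusion {H : Subgroup SL(2, ℤ)} (hH : H ≤ Γ) :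
    (Subgroup.inclusion hH) ⁻¹' ({γ : Γ | IsPosPar (γ : SL(2, ℤ))} : Set Γ)
      = ({γ : H | IsPosPar (γ : SL(2, ℤ))} : Set H) := rfl

end Fermat.Agent.S41.H62
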